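/-
S25lib / Abel / Mem  (helper5)  --  Project L (S25), membership in the cut for CONNECTED FAMILIES.
`inP_of_geometricallyIntegral`: a rigidified line bundle `M` on `C ×_k T`, with `T` geometrically integral and
locally of finite type over `k`, whose restriction to ONE `k`-point `t₀` of `T` is trivial, is fibrewise
algebraically equivalent to zero (the parameter space of the algebraic equivalence at a geometric point
`s : Spec K ⟶ T` is `T_K`, the family is the pullback of `M`, the two points are `s` and `t₀`).
-/
import Fermat.Agent.S25lib.Iface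

set_option autoImplicit false

noncomputable section

universe u

open AlgebraicGeometry CategoryTheory CategoryTheory.Limits AlgebraicGeometry.RelPicard
  NeronModelInfra GoodReductionJacobian

namespace Fermat.Agent.S25lib.Abel

variable {k : Type u} [Field k] {C : Scheme.{u}} {c : C ⟶ Spec (CommRingCat.of k)}
  {ε : SchemeHomOver (𝟙 (Spec (CommRingCat.of k))) c}

/-- pullback of modules along equal composites -/
theorem nonempty_pullback_iso_of_comp_eq {X Y Y' Z : Scheme.{u}} {f : X ⟶ Y} {g : Y ⟶ Z}
    {f' : X ⟶ Y'} {g' : Y' ⟶ Z} (h : f ≫ g = f' ≫ g') (N : Z.Modules) :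
    Nonempty ((Scheme.Modules.pullback f).obj ((Scheme.Modules.pullback g).obj N) ≅
      (Scheme.Modules.pullback f').obj ((Scheme.Modules.pullback g').obj N)) :=
  ⟨(Scheme.Modules.pullbackComp _ _).app N ≪≫ (Scheme.Modules.pullbackCongr h).app N ≪≫
    ((Scheme.Modules.pullbackComp _ _).app N).symm⟩

/-- **connected families are in the cut** -/
theorem inP_of_geometricallyIntegral {T : Scheme.{u}} (t : T ⟶ Spec (CommRingCat.of k))
    [LocallyOfFiniteType t] [GeometricallyIntegral t] (M : RLB c ε t)
    (t₀ : SchemeHomOver (𝟙 (Spec (CommRingCat.of k))) t)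
    (h₀ : Nonempty ((M.pullbackAlong t₀).L ≅
      SheafOfModules.unit (pullback c (𝟙 (Spec (CommRingCat.of k)))).ringCatSheaf)) : InP M := by
  intro K _ _ s
  obtain ⟨e₀⟩ := h₀
  let a := fibreAt c t s
  let y : Spec (CommRingCat.of K) ⟶ Spec (CommRingCat.of k) := s ≫ t
  let h : pullback t y ⟶ Spec (CommRingCat.of K) := pullback.snd t y
  have hah : pullback.fst a h ≫ a = pullback.snd a h ≫ h := pullback.condition
  have hs : pullback.fst (pullback.snd c t) s ≫ pullback.snd c t = a ≫ s := pullback.condition
  have hty : pullback.fst t y ≫ t = h ≫ y := pullback.condition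
  have hcond : (pullback.fst a h ≫ pullback.fst (pullback.snd c t) s ≫ pullback.fst c t) ≫ c =
      (pullback.snd a h ≫ pullback.fst t y) ≫ t := by
    rw [Category.assoc, Category.assoc, pullback.condition, reassoc_of% hs, Category.assoc, hty,
      reassoc_of% hah]
  let q : pullback a h ⟶ pullback c t := pullback.lift _ _ hcond
  let t₁ : SchemeHomOver (𝟙 (Spec (CommRingCat.of K))) h :=
    ⟨pullback.lift s (𝟙 _) (by rw [Category.id_comp]), by simp only [h, pullback.lift_snd]⟩
  let t₀' : SchemeHomOver (𝟙 (Spec (CommRingCat.of K))) h :=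
    ⟨pullback.lift (y ≫ t₀.1) (𝟙 _) (by rw [Category.assoc, t₀.2, Category.comp_id, Category.id_comp]),
      by simp only [h, pullback.lift_snd]⟩
  have ha1 : pullback.fst a (𝟙 (Spec (CommRingCat.of K))) ≫ a =
      pullback.snd a (𝟙 (Spec (CommRingCat.of K))) := by
    rw [pullback.condition, Category.comp_id]
  refine ⟨pullback t y, h, inferInstance, inferInstance, (Scheme.Modules.pullback q).obj M.L,
    M.isInvertible.pullback q, t₀', t₁, ?_, ?_⟩
  · -- the fibre at `t₀`
    have hr : (pullback.fst a (𝟙 (Spec (CommRingCat.of K))) ≫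
        pullback.fst (pullback.snd c t) s ≫ pullback.fst c t) ≫ c =
        (pullback.snd a (𝟙 (Spec (CommRingCat.of K))) ≫ y) ≫ 𝟙 _ := by
      rw [Category.assoc, Category.assoc, pullback.condition, reassoc_of% hs, Category.comp_id,
        reassoc_of% ha1]
    let r : pullback a (𝟙 (Spec (CommRingCat.of K))) ⟶ pullback c (𝟙 (Spec (CommRingCat.of k))) :=
      pullback.lift _ _ hr
    have heq : baseChangeSnd a t₀' ≫ q = r ≫ baseChangeSnd c t₀ := by
      apply pullback.hom_ext
      · simp only [baseChangeSnd, q, r, t₀', Category.assoc, pullback.lift_fst, pullback.lift_fst_assoc,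
          Category.comp_id]
      · simp only [baseChangeSnd, q, r, t₀', Category.assoc, pullback.lift_snd, pullback.lift_snd_assoc,
          pullback.lift_fst]
    obtain ⟨e⟩ := nonempty_pullback_iso_of_comp_eq heq M.L
    exact ⟨e ≪≫ (Scheme.Modules.pullback r).mapIso e₀ ≪≫ Scheme.Modules.pullbackUnitIso r⟩
  · -- the fibre at `s`
    have heq : baseChangeSnd a t₁ ≫ q = pullback.fst a (𝟙 (Spec (CommRingCat.of K))) ≫
        pullback.fst (pullback.snd c t) s := by
      apply pullback.hom_ext
      · simp only [baseChangeSnd, q, t₁, Category.assoc, pullback.lift_fst, pullback.lift_fst_assoc,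
          Category.comp_id]
      · simp only [baseChangeSnd, q, t₁, Category.assoc, pullback.lift_snd, pullback.lift_snd_assoc,
          pullback.lift_fst]
        rw [hs, reassoc_of% ha1]
    exact nonempty_pullback_iso_of_comp_eq heq M.L

end Fermat.Agent.S25lib.Abel
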