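/-
S25lib / Abel / Cartier  (helper5)  --  Project L (S25): the cocycle of an effective Cartier divisor.
For a closed immersion `i : Z ⟶ X` into an integral separated scheme whose ideal sheaf `i.ker` is locally
principal and with `Z ≠ X`, the cocycle `cartier i : Mod.Cocycle X (LocEq i)`: the index set is the set of ALL
local equations `(W, f)` (`W` affine open, `i.ker.ideal W = (f)`), `U (W, f) = W`, and the transition function
`u (W, f) (W', f')` is the unique function on `W ⊓ W'` with `f * u = f'`.  Its module is `O(Z)`.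
-/
import Fermat.Agent.S25lib.Mod.CocyclePull

set_option autoImplicit false

noncomputable section

universe u

open AlgebraicGeometry CategoryTheory CategoryTheory.Limits TopologicalSpace

namespace Fermat.Agent.S25lib.Abel

open Fermat.Agent.S25lib.Mod

variable {X Z : Scheme.{u}} (i : Z ⟶ X)

/-- a local equation of the closed subscheme `Z`: an affine open `W` and a generator `f` of the ideal of
`Z` on `W` -/
structure LocEq where
  W : X.Opens
  aff : IsAffineOpen W
  f : Γ(X, W)
  hf : i.ker.ideal ⟨W, aff⟩ = Ideal.span {f}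

namespace LocEq

variable {i}

/-- a local equation restricts to local equations on smaller affine opens -/
theorem ideal_eq (j : LocEq i) {V : X.Opens} (hV : IsAffineOpen V) (h : V ≤ j.W) :
    i.ker.ideal ⟨V, hV⟩ = Ideal.span {resO h j.f} := by
  have h1 := i.ker.map_ideal (U := ⟨V, hV⟩) (V := ⟨j.W, j.aff⟩) h
  rw [← h1, j.hf, Ideal.map_span, Set.image_singleton]
  rfl

/-- the restriction of a local equation to a smaller affine open -/
def restrict (j : LocEq i) {V : X.Opens} (hV : IsAffineOpen V) (h : V ≤ j.W) : LocEq i where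
  W := V
  aff := hV
  f := resO h j.f
  hf := j.ideal_eq hV h

/-- two local equations differ by a function on every common affine open -/
theorem exists_mul_eq (j j' : LocEq i) {V : X.Opens} (hV : IsAffineOpen V) (h : V ≤ j.W)
    (h' : V ≤ j'.W) : ∃ a : Γ(X, V), resO h j.f * a = resO h' j'.f := by
  have h1 : resO h' j'.f ∈ Ideal.span {resO h j.f} := by
    rw [← j.ideal_eq hV h, j'.ideal_eq hV h']
    exact Ideal.subset_span rfl
  obtain ⟨a, ha⟩ := Ideal.mem_span_singleton'.mp h1
  exact ⟨a, by rw [mul_comm]; exact ha⟩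

variable [IsIntegral X] [IsClosedImmersion i]

/-- a local equation does not vanish on any nonempty open (as `Z ≠ X`) -/
theorem resO_ne_zero (hne : Set.range i ≠ Set.univ) (j : LocEq i) {V : X.Opens} (h : V ≤ j.W)
    (hV : (V : Set X).Nonempty) : resO h j.f ≠ 0 := by
  intro h0
  obtain ⟨x, hx⟩ := hV
  obtain ⟨_, ⟨V', hV', rfl⟩, hxV', hV'V⟩ :=
    X.isBasis_affineOpens.exists_subset_of_mem_open hx V.2
  have hle : V' ≤ V := hV'V
  have h1 : i.ker.ideal ⟨V', hV'⟩ = ⊥ := by
    rw [j.ideal_eq hV' (hle.trans h), ← resO_resO h hle, h0]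
    simp [resO]
  have h2 : (V' : Set X) ⊆ i.ker.support := by
    intro y hy
    rw [SetLike.mem_coe, Scheme.IdealSheafData.mem_support_iff_of_mem (U := ⟨V', hV'⟩) hy, h1]
    simp
  have h3 : (i.ker.support : Set X) = Set.range i := by
    rw [Scheme.Hom.support_ker]
    exact i.isClosedEmbedding.isClosed_range.closure_eq
  have h4 : Dense (V' : Set X) := V'.2.dense ⟨x, hxV'⟩
  apply hne
  rw [← h3]
  refine Set.eq_univ_of_univ_subset ?_
  rw [← h4.closure_eq]
  exact closure_minimal h2 i.ker.support.isClosed

/-- cancellation of a local equation -/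
theorem cancel (hne : Set.range i ≠ Set.univ) (j : LocEq i) {V : X.Opens} (h : V ≤ j.W)
    {a b : Γ(X, V)} (hab : resO h j.f * a = resO h j.f * b) : a = b := by
  by_cases hV : (V : Set X).Nonempty
  · have : Nonempty V := hV.to_subtype
    exact mul_left_cancel₀ (j.resO_ne_zero hne h hV) hab
  · have hbot : V = ⊥ := by
      ext x
      simp only [Opens.coe_bot, Set.mem_empty_iff_false, iff_false]
      exact fun hx => hV ⟨x, hx⟩
    subst hbot
    exact Subsingleton.elim _ _

end LocEq

section Cocycle

variable [X.IsSeparated]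

/-- the transition function between two local equations: `f * trans = f'` on `W ⊓ W'` -/
def LocEq.trans (j j' : LocEq i) : Γ(X, j.W ⊓ j'.W) :=
  (LocEq.exists_mul_eq j j' (j.aff.inf j'.aff) inf_le_left inf_le_right).choose

theorem LocEq.trans_spec (j j' : LocEq i) :
    resO inf_le_left j.f * j.trans i j' = resO (inf_le_right : j.W ⊓ j'.W ≤ j'.W) j'.f :=
  (LocEq.exists_mul_eq j j' (j.aff.inf j'.aff) inf_le_left inf_le_right).choose_spec

/-- the same on every smaller open -/
theorem LocEq.trans_spec' (j j' : LocEq i) {V : X.Opens} (h : V ≤ j.W ⊓ j'.W) :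
    resO (h.trans inf_le_left) j.f * resO h (j.trans i j') = resO (h.trans inf_le_right) j'.f := by
  have h1 := congrArg (resO h) (j.trans_spec i j')
  rwa [resO_mul, resO_resO, resO_resO] at h1

variable [IsIntegral X] [IsClosedImmersion i]

/-- **the cocycle of the effective Cartier divisor `Z`** (its module is `O(Z)`) -/
def cartier (hcov : ∀ x : X, ∃ j : LocEq i, x ∈ j.W) (hne : Set.range i ≠ Set.univ) :
    Cocycle X (LocEq i) where
  U := fun j => j.W
  hU := by
    rw [eq_top_iff]
    intro x _
    obtain ⟨j, hj⟩ := hcov x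
    exact Opens.mem_iSup.mpr ⟨j, hj⟩
  u := fun j j' => j.trans i j'
  u_self := by
    intro j
    apply j.cancel hne inf_le_left
    rw [j.trans_spec i j, mul_one]
  u_mul := by
    intro j₁ j₂ j₃
    apply j₁.cancel hne (inf_le_left.trans inf_le_left)
    rw [← mul_assoc, j₁.trans_spec' i j₂, j₂.trans_spec' i j₃, j₁.trans_spec' i j₃]

variable (hcov : ∀ x : X, ∃ j : LocEq i, x ∈ j.W) (hne : Set.range i ≠ Set.univ)

theorem cartier_U (j : LocEq i) : (cartier i hcov hne).U j = j.W := rfl

theorem cartier_u (j j' : LocEq i) : (cartier i hcov hne).u j j' = j.trans i j' := rfl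

/-- the defining relation of the cocycle -/
theorem cartier_spec (j j' : LocEq i) {V : X.Opens} (h : V ≤ j.W ⊓ j'.W) :
    resO (h.trans inf_le_left) j.f * resO h ((cartier i hcov hne).u j j') =
      resO (h.trans inf_le_right) j'.f :=
  j.trans_spec' i j' h

end Cocycle

end Fermat.Agent.S25lib.Abel
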