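/-
S25lib / Abel / DiagAlg  (helper5)  --  Project L (S25): the diagonal ideal is principal near a rational point
with a local parameter (pure algebra, elementary: no differentials).
`B` a `k`-algebra, `𝔪 = (z)` an ideal with `B = k + 𝔪`; `I := ker (B ⊗[k] B → B)`, `δ := 1 ⊗ z - z ⊗ 1`,
`𝔫 := ` the preimage of `𝔪` in `B ⊗[k] B`.  Then `I ≤ (δ) + 𝔫 I` and, if `I` is finitely generated, there is
`h ≡ 1 mod 𝔫` with `h I ≤ (δ)` (Nakayama).
-/
import Mathlib

set_option autoImplicit false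

noncomputable section

open TensorProduct
open scoped Pointwise

namespace Fermat.Agent.S25lib.Abel

variable (k : Type*) {B : Type*} [CommRing k] [CommRing B] [Algebra k B]

/-- the difference `1 ⊗ z - z ⊗ 1` -/
def diagEq (z : B) : B ⊗[k] B := (1 : B) ⊗ₜ[k] z - z ⊗ₜ[k] (1 : B)

theorem diagEq_mem_ideal (z : B) : diagEq k z ∈ KaehlerDifferential.ideal k B :=
  KaehlerDifferential.one_smul_sub_smul_one_mem_ideal k z

/-- the ideal of the diagonal point over `𝔪` -/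
def diagPt (𝔪 : Ideal B) : Ideal (B ⊗[k] B) :=
  𝔪.comap (Algebra.TensorProduct.lmul' k : B ⊗[k] B →ₐ[k] B)

variable {k}

theorem diag_le_sup (𝔪 : Ideal B) (z : B) (hz : 𝔪 = Ideal.span {z})
    (hk : ∀ b : B, ∃ t : k, b - algebraMap k B t ∈ 𝔪) :
    KaehlerDifferential.ideal k B ≤
      Ideal.span {diagEq k z} ⊔ diagPt k 𝔪 • KaehlerDifferential.ideal k B := by
  conv_lhs => rw [← KaehlerDifferential.span_range_eq_ideal]
  rw [Ideal.span_le]
  rintro _ ⟨b, rfl⟩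
  obtain ⟨t, ht⟩ := hk b
  rw [hz, Ideal.mem_span_singleton'] at ht
  obtain ⟨b₁, hb₁⟩ := ht
  have hb : b = algebraMap k B t + b₁ * z := by rw [hb₁]; ring
  have hconst : (1 : B) ⊗ₜ[k] (algebraMap k B t) = (algebraMap k B t) ⊗ₜ[k] (1 : B) := by
    rw [Algebra.algebraMap_eq_smul_one, TensorProduct.tmul_smul, TensorProduct.smul_tmul']
  have key : (1 : B) ⊗ₜ[k] b - b ⊗ₜ[k] (1 : B) =
      diagEq k z * ((1 : B) ⊗ₜ[k] b₁) +
        (z ⊗ₜ[k] (1 : B)) * ((1 : B) ⊗ₜ[k] b₁ - b₁ ⊗ₜ[k] (1 : B)) := by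
    rw [hb, TensorProduct.tmul_add, TensorProduct.add_tmul, hconst]
    simp only [diagEq, sub_mul, mul_sub, Algebra.TensorProduct.tmul_mul_tmul, one_mul, mul_one]
    rw [mul_comm z b₁]
    abel
  show (1 : B) ⊗ₜ[k] b - b ⊗ₜ[k] (1 : B) ∈ _
  rw [key]
  refine Submodule.add_mem_sup (Ideal.mul_mem_right _ _ (Ideal.subset_span rfl)) ?_
  rw [smul_eq_mul]
  refine Ideal.mul_mem_mul ?_ (KaehlerDifferential.one_smul_sub_smul_one_mem_ideal k b₁)
  show Algebra.TensorProduct.lmul' k (z ⊗ₜ[k] (1 : B)) ∈ 𝔪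
  rw [Algebra.TensorProduct.lmul'_apply_tmul, mul_one, hz]
  exact Ideal.subset_span rfl

/-- **the diagonal ideal is generated by `1 ⊗ z - z ⊗ 1` after inverting some `h ≡ 1` at the point** -/
theorem exists_mul_mem_span_diagEq [Algebra.EssFiniteType k B] (𝔪 : Ideal B) (z : B)
    (hz : 𝔪 = Ideal.span {z}) (hk : ∀ b : B, ∃ t : k, b - algebraMap k B t ∈ 𝔪) :
    ∃ h : B ⊗[k] B, h - 1 ∈ diagPt k 𝔪 ∧
      ∀ x ∈ KaehlerDifferential.ideal k B, h * x ∈ Ideal.span {diagEq k z} := by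
  obtain ⟨r, hr1, hr2⟩ := Submodule.exists_sub_one_mem_and_smul_le_of_fg_of_le_sup
    (I := diagPt k 𝔪) (N := Ideal.span {diagEq k z}) (N' := KaehlerDifferential.ideal k B)
    (P := KaehlerDifferential.ideal k B) (KaehlerDifferential.ideal_fg k B) le_rfl
    (diag_le_sup 𝔪 z hz hk)
  refine ⟨r, hr1, fun x hx => ?_⟩
  have : r • x ∈ r • (KaehlerDifferential.ideal k B : Submodule (B ⊗[k] B) (B ⊗[k] B)) :=
    Submodule.smul_mem_pointwise_smul x r _ hx
  exact hr2 this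

end Fermat.Agent.S25lib.Abel
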