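/-
S25lib / Abel / BoxMap  (helper5)  --  Project L (S25): morphisms into a product, on the affine boxes.
For `ψ : Y ⟶ C ×_k T` and a box `U × T'` (helper4's `ProdAff.tensorEquiv : Γ(C ×_k T, U × T') ≃ Γ(C,U) ⊗ Γ(T,T')`):
`ψ^♯ (s ⊗ r) = (ψ ≫ fst)^♯ s * (ψ ≫ snd)^♯ r`.
-/
import Fermat.Agent.S26lib.ProdAff.Box

set_option autoImplicit false

noncomputable section

universe u

open AlgebraicGeometry CategoryTheory CategoryTheory.Limits TopologicalSpace TensorProduct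
  Fermat.Agent.S26lib Fermat.Agent.S26lib.P5a

namespace Fermat.Agent.S25lib.Abel

variable {K : Type u} [Field K] {C T : Scheme.{u}}
  (fC : C ⟶ Spec (CommRingCat.of K)) (fT : T ⟶ Spec (CommRingCat.of K))
  {U : C.Opens} {T' : T.Opens} (hU : IsAffineOpen U) (hT' : IsAffineOpen T')
  [Algebra K Γ(C, U)] [Algebra K Γ(T, T')]
  (hS : algebraMap K Γ(C, U) = (constHomOpen fC U).hom)
  (hR : algebraMap K Γ(T, T') = (constHomOpen fT T').hom)

theorem tensorEquiv_symm_tmul_one (s : Γ(C, U)) :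
    (ProdAff.tensorEquiv fC fT hU hT' hS hR).symm (s ⊗ₜ[K] 1) =
      ((pullback.fst fC fT).appLE U (ProdAff.box fC fT U T') (ProdAff.box_le_fst fC fT U T')).hom s := by
  rw [RingEquiv.symm_apply_eq]
  exact (ProdAff.tensorEquiv_fst fC fT hU hT' hS hR s).symm

theorem tensorEquiv_symm_one_tmul (r : Γ(T, T')) :
    (ProdAff.tensorEquiv fC fT hU hT' hS hR).symm (1 ⊗ₜ[K] r) =
      ((pullback.snd fC fT).appLE T' (ProdAff.box fC fT U T') (ProdAff.box_le_snd fC fT U T')).hom r := by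
  rw [RingEquiv.symm_apply_eq]
  exact (ProdAff.tensorEquiv_snd fC fT hU hT' hS hR r).symm

/-- **a morphism into a product on a box**: `ψ^♯ (s ⊗ r) = (ψ ≫ fst)^♯ s * (ψ ≫ snd)^♯ r` -/
theorem appLE_box_tmul {Y : Scheme.{u}} (ψ : Y ⟶ pullback fC fT) {V : Y.Opens}
    (hV : V ≤ ψ ⁻¹ᵁ ProdAff.box fC fT U T') (s : Γ(C, U)) (r : Γ(T, T')) :
    (ψ.appLE (ProdAff.box fC fT U T') V hV).hom
        ((ProdAff.tensorEquiv fC fT hU hT' hS hR).symm (s ⊗ₜ[K] r)) =
      ((ψ ≫ pullback.fst fC fT).appLE U V (fun _ hx => (hV hx).1)).hom s *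
        ((ψ ≫ pullback.snd fC fT).appLE T' V (fun _ hx => (hV hx).2)).hom r := by
  have h1 : s ⊗ₜ[K] r = (s ⊗ₜ[K] (1 : Γ(T, T'))) * ((1 : Γ(C, U)) ⊗ₜ[K] r) := by
    rw [Algebra.TensorProduct.tmul_mul_tmul, mul_one, one_mul]
  rw [h1, map_mul, map_mul, tensorEquiv_symm_tmul_one, tensorEquiv_symm_one_tmul]
  congr 1
  · have := Scheme.Hom.appLE_comp_appLE ψ (pullback.fst fC fT) U (ProdAff.box fC fT U T') V
      (ProdAff.box_le_fst fC fT U T') hV
    exact congrArg (fun φ => φ.hom s) this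
  · have := Scheme.Hom.appLE_comp_appLE ψ (pullback.snd fC fT) T' (ProdAff.box fC fT U T') V
      (ProdAff.box_le_snd fC fT U T') hV
    exact congrArg (fun φ => φ.hom r) this

end Fermat.Agent.S25lib.Abel
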