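/-
S25lib / Abel / DiagBox  (helper5)  --  Project L (S25): the ideal of the diagonal of `C ×_k C` on a box `U × U`
is the kernel of the multiplication `Γ(C,U) ⊗[k] Γ(C,U) → Γ(C,U)`.
-/
import Fermat.Agent.S25lib.Abel.BoxMap

set_option autoImplicit false

noncomputable section

universe u

open AlgebraicGeometry CategoryTheory CategoryTheory.Limits TopologicalSpace TensorProduct
  Fermat.Agent.S26lib Fermat.Agent.S26lib.P5a

namespace Fermat.Agent.S25lib.Abel

variable {k : Type u} [Field k] {C : Scheme.{u}} (c : C ⟶ Spec (CommRingCat.of k))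

theorem le_diagonal_preimage_box (U : C.Opens) :
    U ≤ (pullback.diagonal c) ⁻¹ᵁ ProdAff.box c c U U := by
  intro x hx
  refine ⟨?_, ?_⟩
  · show (pullback.diagonal c ≫ pullback.fst c c) x ∈ U
    rw [pullback.diagonal_fst]
    exact hx
  · show (pullback.diagonal c ≫ pullback.snd c c) x ∈ U
    rw [pullback.diagonal_snd]
    exact hx

theorem diagonal_preimage_box_le (U : C.Opens) :
    (pullback.diagonal c) ⁻¹ᵁ ProdAff.box c c U U ≤ U := by
  intro x hx
  have h1 : (pullback.diagonal c ≫ pullback.fst c c) x ∈ U := hx.1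
  rwa [pullback.diagonal_fst] at h1

/-- `appLE` of a morphism equal to the identity -/
theorem appLE_eq_of_eq_id {X : Scheme.{u}} (φ : X ⟶ X) (hφ : φ = 𝟙 X) {U : X.Opens}
    (h : U ≤ φ ⁻¹ᵁ U) (s : Γ(X, U)) : (φ.appLE U U h).hom s = s := by
  subst hφ
  have h1 : (𝟙 X : X ⟶ X).appLE U U h = X.presheaf.map (𝟙 (Opposite.op U)) := by
    show (𝟙 X : X ⟶ X).app U ≫ X.presheaf.map (homOfLE h).op = _
    rw [Scheme.Hom.id_app]
    exact Category.id_comp _
  rw [h1, X.presheaf.map_id]
  rfl

/-- restriction between equal opens is injective -/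
theorem map_injective_of_le_of_le {X : Scheme.{u}} {V₁ V₂ : X.Opens} (h : V₂ ≤ V₁) (h' : V₁ ≤ V₂) :
    Function.Injective (X.presheaf.map (homOfLE h).op).hom := by
  intro a b hab
  have h1 : X.presheaf.map (homOfLE h).op ≫ X.presheaf.map (homOfLE h').op = 𝟙 _ := by
    rw [← Functor.map_comp]
    exact X.presheaf.map_id _
  have h2 := congrArg (X.presheaf.map (homOfLE h').op).hom hab
  have h3 : ∀ t, (X.presheaf.map (homOfLE h').op).hom ((X.presheaf.map (homOfLE h).op).hom t) = t :=
    fun t => congrArg (fun φ => φ.hom t) h1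
  rwa [h3, h3] at h2

variable {U : C.Opens} (hU : IsAffineOpen U) [Algebra k Γ(C, U)]
  (hS : algebraMap k Γ(C, U) = (constHomOpen c U).hom)

/-- **the diagonal on a box is the multiplication** -/
theorem diagonal_appLE_box (x : Γ(C, U) ⊗[k] Γ(C, U)) :
    ((pullback.diagonal c).appLE (ProdAff.box c c U U) U (le_diagonal_preimage_box c U)).hom
        ((ProdAff.tensorEquiv c c hU hU hS hS).symm x) =
      Algebra.TensorProduct.lmul' k x := by
  induction x using TensorProduct.induction_on with
  | zero => simp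
  | tmul s r =>
    rw [appLE_box_tmul c c hU hU hS hS, Algebra.TensorProduct.lmul'_apply_tmul,
      appLE_eq_of_eq_id _ (pullback.diagonal_fst c), appLE_eq_of_eq_id _ (pullback.diagonal_snd c)]
  | add x y hx hy => rw [map_add, map_add, map_add, hx, hy]

variable [IsSeparated c]

/-- **the ideal of the diagonal on a box** -/
theorem mem_ker_diagonal_box_iff (x : Γ(pullback c c, ProdAff.box c c U U)) :
    x ∈ (pullback.diagonal c).ker.ideal
        ⟨ProdAff.box c c U U, ProdAff.isAffineOpen_box c c hU hU hS hS⟩ ↔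
      ProdAff.tensorEquiv c c hU hU hS hS x ∈ KaehlerDifferential.ideal k Γ(C, U) := by
  rw [Scheme.Hom.ker_apply, RingHom.mem_ker, RingHom.mem_ker]
  have h1 := diagonal_appLE_box c hU hS (ProdAff.tensorEquiv c c hU hU hS hS x)
  rw [RingEquiv.symm_apply_apply] at h1
  have h1' : (Algebra.TensorProduct.lmul' k : Γ(C, U) ⊗[k] Γ(C, U) →ₐ[k] Γ(C, U))
      (ProdAff.tensorEquiv c c hU hU hS hS x) =
      ((pullback.diagonal c).appLE (ProdAff.box c c U U) U (le_diagonal_preimage_box c U)).hom x :=
    h1.symm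
  rw [h1']
  have h2 : ((pullback.diagonal c).appLE (ProdAff.box c c U U) U
      (le_diagonal_preimage_box c U)).hom x =
      (C.presheaf.map (homOfLE (le_diagonal_preimage_box c U)).op).hom
        (((pullback.diagonal c).app (ProdAff.box c c U U)).hom x) := rfl
  rw [h2]
  constructor
  · intro h
    rw [h, map_zero]
  · intro h
    apply map_injective_of_le_of_le (le_diagonal_preimage_box c U) (diagonal_preimage_box_le c U)
    rw [h, map_zero]

end Fermat.Agent.S25lib.Abel
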