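/-
S25lib / Abel / DiagLoc  (helper5)  --  Project L (S25): a local equation of the diagonal of `C ×_k C` near the
diagonal point of a rational point `ε`, from helper8's `PointChart`: on a basic open `D(h)` of the box `U₂ × U₂`
around `(ε, ε)` the ideal of the diagonal is generated by `1 ⊗ z - z ⊗ 1` (`z` the local parameter at `ε`).
-/
import Fermat.Agent.S25lib.Abel.Cartier
import Fermat.Agent.S25lib.Abel.DiagAlg
import Fermat.Agent.S25lib.Abel.DiagBox
import Fermat.Agent.S25lib.Curve.Charts

set_option autoImplicit false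

noncomputable section

universe u

open AlgebraicGeometry CategoryTheory CategoryTheory.Limits TopologicalSpace TensorProduct
  Fermat.Agent.S26lib Fermat.Agent.S26lib.P5a

namespace Fermat.Agent.S25lib.Abel

open Fermat.Agent.S25lib.Mod

variable {k : Type u} [Field k] {C : Scheme.{u}} (c : C ⟶ Spec (CommRingCat.of k))

/-- the germ of a constant section is the constant germ -/
theorem germ_constHomOpen (U : C.Opens) (x : C) (hx : x ∈ U) (t : k) :
    C.presheaf.germ U x hx ((constHomOpen c U).hom t) = Prod.KPt.constStalk c x t := by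
  unfold constHomOpen Prod.KPt.constStalk
  simp only [CommRingCat.hom_comp, RingHom.comp_apply]
  have h1 : c.appLE ⊤ U le_top ≫ C.presheaf.germ U x hx =
      c.appTop ≫ C.presheaf.germ ⊤ x trivial := by
    show (c.app ⊤ ≫ C.presheaf.map (homOfLE _).op) ≫ _ = _
    rw [Category.assoc, TopCat.Presheaf.germ_res]
    rfl
  exact congrArg (fun φ => φ.hom ((Scheme.ΓSpecIso (CommRingCat.of k)).inv.hom t)) h1

/-- a section over an affine open around a rational point is a constant modulo the prime of the point -/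
theorem exists_sub_const_mem_primeIdealOf (ε : Prod.KPt c) {U : C.Opens} (hU : IsAffineOpen U)
    (hε : ε.pt ∈ U) (b : Γ(C, U)) :
    ∃ t : k, b - (constHomOpen c U).hom t ∈ (hU.primeIdealOf ⟨ε.pt, hε⟩).asIdeal := by
  refine ⟨ε.eval (C.presheaf.germ U ε.pt hε b), ?_⟩
  rw [Curve.mem_primeIdealOf_iff hU ⟨ε.pt, hε⟩, map_sub, germ_constHomOpen]
  exact ε.sub_const_mem_maximalIdeal _

/-- a section outside the prime of a point does not vanish at the point -/
theorem mem_basicOpen_of_not_mem_primeIdealOf {U : C.Opens} (hU : IsAffineOpen U) (x : U)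
    (b : Γ(C, U)) (hb : b ∉ (hU.primeIdealOf x).asIdeal) : x.1 ∈ C.basicOpen b := by
  rw [Scheme.mem_basicOpen C b x.1 x.2]
  rw [Curve.mem_primeIdealOf_iff hU x, IsLocalRing.mem_maximalIdeal, mem_nonunits_iff, not_not] at hb
  exact hb

variable [IsSeparated c]

/-- **a local equation of the diagonal near `(ε, ε)`**: if the prime of `ε` in `Γ(C, U)` is generated by `z` -/
theorem exists_locEq_diagonal (ε : Prod.KPt c) [LocallyOfFiniteType c] {U : C.Opens}
    (hU : IsAffineOpen U) (hε : ε.pt ∈ U) (z : Γ(C, U))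
    (hz : (hU.primeIdealOf ⟨ε.pt, hε⟩).asIdeal = Ideal.span {z}) :
    letI : Algebra k Γ(C, U) := (constHomOpen c U).hom.toAlgebra
    ∃ (j : LocEq (pullback.diagonal c)) (hle : j.W ≤ ProdAff.box c c U U),
      (pullback.diagonal c) ε.pt ∈ j.W ∧
      j.f = resO hle ((ProdAff.tensorEquiv c c hU hU rfl rfl).symm (diagEq k z)) := by
  let _ : Algebra k Γ(C, U) := (constHomOpen c U).hom.toAlgebra
  have hft : Algebra.FiniteType k Γ(C, U) := finiteType_constHomOpen c hU
  set 𝔪 := (hU.primeIdealOf ⟨ε.pt, hε⟩).asIdeal with h𝔪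
  obtain ⟨h, hh1, hh2⟩ := exists_mul_mem_span_diagEq (k := k) 𝔪 z hz
    (fun b => exists_sub_const_mem_primeIdealOf c ε hU hε b)
  set box := ProdAff.box c c U U with hbox
  have haff : IsAffineOpen box := ProdAff.isAffineOpen_box c c hU hU rfl rfl
  set te := ProdAff.tensorEquiv c c hU hU rfl rfl with hte
  set h' := te.symm h with hh'
  set δ' := te.symm (diagEq k z) with hδ'
  have hWle : (pullback c c).basicOpen h' ≤ box := (pullback c c).basicOpen_le h'
  have hWaff : IsAffineOpen ((pullback c c).basicOpen h') := haff.basicOpen h'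
  have hδmem : δ' ∈ (pullback.diagonal c).ker.ideal ⟨box, haff⟩ := by
    rw [mem_ker_diagonal_box_iff c hU rfl, hδ', RingEquiv.apply_symm_apply]
    exact diagEq_mem_ideal k z
  have hunit : IsUnit (resO hWle h') := RingedSpace.isUnit_res_basicOpen _ h'
  have hf : (pullback.diagonal c).ker.ideal ⟨(pullback c c).basicOpen h', hWaff⟩ =
      Ideal.span {resO hWle δ'} := by
    have h1 := (pullback.diagonal c).ker.map_ideal
      (U := ⟨(pullback c c).basicOpen h', hWaff⟩) (V := ⟨box, haff⟩) hWle
    rw [← h1]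
    apply le_antisymm
    · rw [Ideal.map_le_iff_le_comap]
      intro x hx
      rw [mem_ker_diagonal_box_iff c hU rfl] at hx
      obtain ⟨q, hq⟩ := Ideal.mem_span_singleton'.mp (hh2 _ hx)
      have h2 : te.symm q * δ' = h' * x := by
        rw [hδ', hh', ← map_mul, hq, map_mul, RingEquiv.symm_apply_apply]
      have h3 : resO hWle (te.symm q) * resO hWle δ' = resO hWle h' * resO hWle x := by
        rw [← resO_mul, ← resO_mul, h2]
      obtain ⟨u, hu⟩ := hunit
      show resO hWle x ∈ Ideal.span {resO hWle δ'}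
      rw [Ideal.mem_span_singleton']
      refine ⟨↑u⁻¹ * resO hWle (te.symm q), ?_⟩
      rw [mul_assoc, h3, ← hu, ← mul_assoc, Units.inv_mul, one_mul]
    · rw [Ideal.span_singleton_le_iff_mem]
      exact Ideal.mem_map_of_mem _ hδmem
  refine ⟨⟨(pullback c c).basicOpen h', hWaff, resO hWle δ', hf⟩, hWle, ?_, rfl⟩
  -- the diagonal point lies in `D(h')`
  show (pullback.diagonal c) ε.pt ∈ (pullback c c).basicOpen h'
  have h4 : ε.pt ∈ (pullback.diagonal c) ⁻¹ᵁ (pullback c c).basicOpen h' := by
    rw [Scheme.preimage_basicOpen]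
    have h5 : ((pullback.diagonal c).appLE box U (le_diagonal_preimage_box c U)).hom h' =
        Algebra.TensorProduct.lmul' k h := diagonal_appLE_box c hU rfl h
    have h6 : Algebra.TensorProduct.lmul' k h ∉ 𝔪 := by
      intro hmem
      have h7 : Algebra.TensorProduct.lmul' k (h - 1) ∈ 𝔪 := hh1
      rw [map_sub, map_one] at h7
      have h8 : (1 : Γ(C, U)) ∈ 𝔪 := by
        have := 𝔪.sub_mem hmem h7
        rwa [sub_sub_cancel] at this
      exact (hU.primeIdealOf ⟨ε.pt, hε⟩).isPrime.ne_top ((Ideal.eq_top_iff_one _).mpr h8)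
    have h9 := mem_basicOpen_of_not_mem_primeIdealOf hU ⟨ε.pt, hε⟩ _ h6
    rw [← h5] at h9
    have h10 : C.basicOpen (((pullback.diagonal c).appLE box U (le_diagonal_preimage_box c U)).hom h') =
        U ⊓ C.basicOpen (((pullback.diagonal c).app box).hom h') :=
      Scheme.basicOpen_res _ _ _
    rw [h10] at h9
    exact h9.2
  exact h4

end Fermat.Agent.S25lib.Abel
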