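/-
S25lib / Abel / Diag  (helper5)  --  Project L (S25): **the cocycle of the diagonal of `C ×_k C`**, i.e. the
invertible module `O(Δ)`, for a proper smooth integral curve `C` over `k = k̄`.
`diagCocycle c : Mod.Cocycle (pullback c c) (LocEq (pullback.diagonal c))` (the Cartier cocycle of `Abel/Cartier`),
with the explicit indices `exists_locEq_diagonal_kPt` around the diagonal points of the rational points.
-/
import Fermat.Agent.S25lib.Abel.DiagLoc
import Fermat.Agent.S25lib.Curve.GeomIntegral

set_option autoImplicit false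

noncomputable section

universe u

open AlgebraicGeometry CategoryTheory CategoryTheory.Limits TopologicalSpace TensorProduct
  Fermat.Agent.S26lib Fermat.Agent.S26lib.P5a

namespace Fermat.Agent.S25lib.Abel

open Fermat.Agent.S25lib.Mod

variable {k : Type u} [Field k] [IsAlgClosed k] {C : Scheme.{u}}
  (c : C ⟶ Spec (CommRingCat.of k)) [IsProper c] [SmoothOfRelativeDimension 1 c] [IsIntegral C]

instance isIntegral_sq : IsIntegral (pullback c c) := by
  have := Curve.geometricallyIntegral c
  have := Curve.isLocallyNoetherian c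
  infer_instance

omit [IsAlgClosed k] [SmoothOfRelativeDimension 1 c] [IsIntegral C] in
theorem isSeparated_sq : (pullback c c).IsSeparated := by
  have : IsSeparated (pullback.fst c c ≫ c) := inferInstance
  exact (HasAffineProperty.iff_of_isAffine (P := @IsSeparated)).mp this

instance : (pullback c c).IsSeparated := isSeparated_sq c

omit [IsAlgClosed k] [SmoothOfRelativeDimension 1 c] [IsIntegral C] in
/-- a local equation of the diagonal around the diagonal point of a rational point, inside the box of the
second chart of a `PointChart` -/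
theorem exists_locEq_diagonal_kPt (ε : Prod.KPt c) (T : Curve.PointChart c ε.pt) :
    letI : Algebra k Γ(C, T.U₂) := (constHomOpen c T.U₂).hom.toAlgebra
    ∃ (j : LocEq (pullback.diagonal c)) (hle : j.W ≤ ProdAff.box c c T.U₂ T.U₂),
      (pullback.diagonal c) ε.pt ∈ j.W ∧
      j.f = resO hle
        ((ProdAff.tensorEquiv c c T.isAffineOpen₂ T.isAffineOpen₂ rfl rfl).symm (diagEq k T.z)) :=
  exists_locEq_diagonal c ε T.isAffineOpen₂ T.mem₂ T.z T.span_z

omit [IsAlgClosed k] [SmoothOfRelativeDimension 1 c] [IsIntegral C] in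
/-- away from the diagonal the local equation is `1` -/
theorem exists_locEq_one (x : ↥(pullback c c)) (hx : x ∉ Set.range (pullback.diagonal c)) :
    ∃ j : LocEq (pullback.diagonal c), j.f = 1 ∧ x ∈ j.W := by
  have hopen : IsOpen (Set.range (pullback.diagonal c))ᶜ :=
    (pullback.diagonal c).isClosedEmbedding.isClosed_range.isOpen_compl
  obtain ⟨_, ⟨W, hW, rfl⟩, hxW, hWsub⟩ :=
    (pullback c c).isBasis_affineOpens.exists_subset_of_mem_open hx hopen
  have hempty : (pullback.diagonal c) ⁻¹ᵁ W = ⊥ := by
    ext y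
    simp only [Opens.coe_bot, Set.mem_empty_iff_false, iff_false]
    intro hy
    exact hWsub hy ⟨y, rfl⟩
  refine ⟨⟨W, hW, 1, ?_⟩, rfl, hxW⟩
  rw [Scheme.Hom.ker_apply, Ideal.span_singleton_one, eq_top_iff]
  intro s _
  rw [RingHom.mem_ker]
  have : Subsingleton Γ(C, (pullback.diagonal c) ⁻¹ᵁ W) := by
    rw [hempty]; infer_instance
  exact Subsingleton.elim _ _

/-- every point of `C ×_k C` has a local equation of the diagonal -/
theorem exists_locEq_mem (x : ↥(pullback c c)) : ∃ j : LocEq (pullback.diagonal c), x ∈ j.W := by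
  by_cases hx : x ∈ Set.range (pullback.diagonal c)
  · obtain ⟨y, rfl⟩ := hx
    have : JacobsonSpace C := LocallyOfFiniteType.jacobsonSpace c
    obtain ⟨y₀, hy₀, hy₀c⟩ := nonempty_inter_closedPoints
      (Z := closure ({y} : Set C)) ((Set.singleton_nonempty y).closure)
      isClosed_closure.isLocallyClosed
    have hsp : y ⤳ y₀ := specializes_iff_mem_closure.mpr hy₀
    let ε : Prod.KPt c := Prod.KPt.ofClosedPoint c y₀ hy₀c
    have hε : ε.pt = y₀ := Prod.KPt.pt_ofClosedPoint c y₀ hy₀c
    obtain ⟨T⟩ := Curve.nonempty_pointChart c ε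
    obtain ⟨j, -, hj, -⟩ := exists_locEq_diagonal_kPt c ε T
    refine ⟨j, ?_⟩
    rw [hε] at hj
    exact (hsp.map (pullback.diagonal c).continuous).mem_open j.W.2 hj
  · obtain ⟨j, -, hj⟩ := exists_locEq_one c x hx
    exact ⟨j, hj⟩

/-- the diagonal is not everything -/
theorem range_diagonal_ne_univ : Set.range (pullback.diagonal c) ≠ Set.univ := by
  intro huniv
  have : JacobsonSpace C := LocallyOfFiniteType.jacobsonSpace c
  obtain ⟨y₀, -, hy₀c⟩ := nonempty_inter_closedPoints (X := C) (Z := Set.univ)
    Set.univ_nonempty isClosed_univ.isLocallyClosed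
  let ε : Prod.KPt c := Prod.KPt.ofClosedPoint c y₀ hy₀c
  obtain ⟨T⟩ := Curve.nonempty_pointChart c ε
  -- `U₁` is not empty
  have hne : ∃ y : C, y ∈ T.U₁ := by
    by_contra hcon
    have hbot : T.U₁ = ⊥ := by
      ext y
      simp only [Opens.coe_bot, Set.mem_empty_iff_false, iff_false]
      exact fun hy => hcon ⟨y, hy⟩
    have hsub : Subsingleton Γ(C, T.U₁) := by rw [hbot]; infer_instance
    have hinj := T.injective
    have h01 : (Polynomial.X : Polynomial k) = 0 := hinj (Subsingleton.elim _ _)
    exact Polynomial.X_ne_zero h01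
  obtain ⟨y, hy⟩ := hne
  have hyε : y ≠ ε.pt := (T.mem₁_iff y).mp hy
  obtain ⟨x, hx1, hx2⟩ := Scheme.Pullback.exists_preimage_pullback (f := c) (g := c) ε.pt y
    (Subsingleton.elim _ _)
  have hxr : x ∈ Set.range (pullback.diagonal c) := by rw [huniv]; trivial
  obtain ⟨w, rfl⟩ := hxr
  have h1 : (pullback.diagonal c ≫ pullback.fst c c) w = ε.pt := hx1
  have h2 : (pullback.diagonal c ≫ pullback.snd c c) w = y := hx2
  rw [pullback.diagonal_fst] at h1
  rw [pullback.diagonal_snd] at h2
  exact hyε (h2.symm.trans h1)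

/-- **the cocycle of the diagonal**: its module is `O(Δ)` on `C ×_k C` -/
def diagCocycle : Cocycle (pullback c c) (LocEq (pullback.diagonal c)) :=
  cartier (pullback.diagonal c) (exists_locEq_mem c) (range_diagonal_ne_univ c)

theorem diagCocycle_U (j : LocEq (pullback.diagonal c)) : (diagCocycle c).U j = j.W := rfl

/-- the defining relation: `f_j * u j j' = f_j'` -/
theorem diagCocycle_spec (j j' : LocEq (pullback.diagonal c)) {V : (pullback c c).Opens}
    (h : V ≤ j.W ⊓ j'.W) :
    resO (h.trans inf_le_left) j.f * resO h ((diagCocycle c).u j j') =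
      resO (h.trans inf_le_right) j'.f :=
  cartier_spec (pullback.diagonal c) (exists_locEq_mem c) (range_diagonal_ne_univ c) j j' h

end Fermat.Agent.S25lib.Abel
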