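/-
S25lib / Abel / DiagPull  (helper5)  --  Project L (S25): the diagonal cocycle along `(id, P) : C_K ⟶ C ×_k C`
for a rational point `P` of `C` (`C_K = pullback c t`, `t : Spec K ⟶ Spec k`).
* `jP c t P : pullback c t ⟶ pullback c c`, `jP_fst`, `jP_snd`, `jP_ptK`, `eq_ptK_of_jP_mem_range`;
* `jP_app_diagEq` : the local equation `1 ⊗ z - z ⊗ 1` of the diagonal pulls back to `- z_K` (helper8's `ZChart.zK`).
-/
import Fermat.Agent.S25lib.Abel.Diag
import Fermat.Agent.S25lib.Curve.ZChart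

set_option autoImplicit false

noncomputable section

universe u

open AlgebraicGeometry CategoryTheory CategoryTheory.Limits TopologicalSpace TensorProduct
  Fermat.Agent.S26lib Fermat.Agent.S26lib.P5a

namespace Fermat.Agent.S25lib.Abel

open Fermat.Agent.S25lib.Mod Fermat.Agent.S25lib.Curve

variable {k : Type u} [Field k] {C : Scheme.{u}} (c : C ⟶ Spec (CommRingCat.of k))
  {K : Type u} [Field K] (t : Spec (CommRingCat.of K) ⟶ Spec (CommRingCat.of k))
  (P : Prod.KPt c)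

/-- the morphism `(id, P) : C_K ⟶ C ×_k C` -/
def jP : pullback c t ⟶ pullback c c :=
  pullback.lift (pullback.fst c t) (pullback.snd c t ≫ t ≫ P.1)
    (by rw [Category.assoc, Category.assoc, P.2, Category.comp_id, pullback.condition])

@[reassoc]
theorem jP_fst : jP c t P ≫ pullback.fst c c = pullback.fst c t := pullback.lift_fst _ _ _

@[reassoc]
theorem jP_snd : jP c t P ≫ pullback.snd c c = pullback.snd c t ≫ t ≫ P.1 :=
  pullback.lift_snd _ _ _

theorem fst_jP_apply (y : ↥(pullback c t)) :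
    (pullback.fst c c) (jP c t P y) = (pullback.fst c t) y := by
  have := congrArg (fun φ : pullback c t ⟶ C => φ y) (jP_fst c t P)
  exact this

theorem snd_jP_apply (y : ↥(pullback c t)) : (pullback.snd c c) (jP c t P y) = P.pt := by
  have h := congrArg (fun φ : pullback c t ⟶ C => φ y) (jP_snd c t P)
  simp only [Scheme.Hom.comp_apply] at h
  rw [h]
  exact congrArg P.1 (Subsingleton.elim _ _)

/-- `(id, P)` maps `P_K` to the diagonal point of `P` -/
theorem jP_ptK : jP c t P (ptK c t P).pt = (pullback.diagonal c) P.pt := by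
  have h : (ptK c t P).1 ≫ jP c t P = (t ≫ P.1) ≫ pullback.diagonal c := by
    apply pullback.hom_ext
    · rw [Category.assoc, jP_fst, ptK_fst, Category.assoc, pullback.diagonal_fst, Category.comp_id]
    · rw [Category.assoc, jP_snd, Category.assoc, pullback.diagonal_snd, Category.comp_id]
      have h1 : (ptK c t P).1 ≫ pullback.snd c t = 𝟙 _ := (ptK c t P).2
      rw [reassoc_of% h1]
  have h2 := congrArg (fun φ : Spec (CommRingCat.of K) ⟶ pullback c c => φ (Prod.KPt.o K)) h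
  simp only [Scheme.Hom.comp_apply] at h2
  have h3 : t (Prod.KPt.o K) = Prod.KPt.o k := Subsingleton.elim _ _
  rw [h3] at h2
  exact h2

/-- only `P_K` is mapped into the diagonal -/
theorem eq_ptK_of_jP_mem_range (y : ↥(pullback c t))
    (h : jP c t P y ∈ Set.range (pullback.diagonal c)) : y = (ptK c t P).pt := by
  obtain ⟨w, hw⟩ := h
  have h1 : (pullback.diagonal c ≫ pullback.fst c c) w = (pullback.fst c t) y := by
    rw [← fst_jP_apply c t P y, ← hw]; rfl
  have h2 : (pullback.diagonal c ≫ pullback.snd c c) w = P.pt := by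
    rw [← snd_jP_apply c t P y, ← hw]; rfl
  rw [pullback.diagonal_fst] at h1
  rw [pullback.diagonal_snd] at h2
  apply eq_ptK_of_fst_eq c t P y
  rw [← h1]
  exact h2

/-- the preimage of a box `U × U` lies in `U × K` -/
theorem jP_preimage_box_le (U : C.Opens) :
    jP c t P ⁻¹ᵁ ProdAff.box c c U U ≤ ProdAff.box c t U ⊤ := by
  intro y hy
  refine ⟨?_, trivial⟩
  have h1 : (pullback.fst c c) (jP c t P y) ∈ U := hy.1
  rw [fst_jP_apply] at h1
  exact h1

/-- a function of the prime ideal of a rational point pulls back to `0` along every constant map -/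
theorem appLE_comp_kPt_eq_zero {U : C.Opens} (hU : IsAffineOpen U) (hP : P.pt ∈ U) (z : Γ(C, U))
    (hz : z ∈ (hU.primeIdealOf ⟨P.pt, hP⟩).asIdeal) {Y : Scheme.{u}}
    (q : Y ⟶ Spec (CommRingCat.of k)) {V : Y.Opens} (hV : V ≤ (q ≫ P.1) ⁻¹ᵁ U) :
    ((q ≫ P.1).appLE U V hV).hom z = 0 := by
  have htop : (⊤ : (Spec (CommRingCat.of k)).Opens) ≤ P.1 ⁻¹ᵁ U := by
    intro x _
    have : x = Prod.KPt.o k := Subsingleton.elim _ _
    subst this
    exact hP
  have h1 : P.1.appLE U ⊤ htop ≫ q.appLE ⊤ V le_top = (q ≫ P.1).appLE U V hV :=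
    Scheme.Hom.appLE_comp_appLE q P.1 U ⊤ V htop le_top
  have h2 : (P.1.appLE U ⊤ htop).hom z = 0 := by
    by_contra hne
    have hfield : IsField Γ(Spec (CommRingCat.of k), ⊤) :=
      MulEquiv.isField (Field.toIsField k)
        (Scheme.ΓSpecIso (CommRingCat.of k)).commRingCatIsoToRingEquiv.toMulEquiv
    let _ : Field Γ(Spec (CommRingCat.of k), ⊤) := hfield.toField
    have hu : IsUnit ((P.1.appLE U ⊤ htop).hom z) := isUnit_iff_ne_zero.mpr hne
    -- the germ at the closed point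
    have hu2 : IsUnit (((Spec (CommRingCat.of k)).presheaf.germ ⊤ (Prod.KPt.o k) trivial).hom
        ((P.1.appLE U ⊤ htop).hom z)) := hu.map _
    have h3 : C.presheaf.germ U P.pt hP ≫ P.1.stalkMap (Prod.KPt.o k) =
        P.1.app U ≫ (Spec (CommRingCat.of k)).presheaf.germ (P.1 ⁻¹ᵁ U) (Prod.KPt.o k) hP :=
      Scheme.Hom.germ_stalkMap P.1 U (Prod.KPt.o k) hP
    have h4 : ((Spec (CommRingCat.of k)).presheaf.germ ⊤ (Prod.KPt.o k) trivial).hom
        ((P.1.appLE U ⊤ htop).hom z) =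
        (P.1.stalkMap (Prod.KPt.o k)).hom ((C.presheaf.germ U P.pt hP).hom z) := by
      have h5 := congrArg (fun φ => φ.hom z) h3
      simp only [CommRingCat.hom_comp, RingHom.coe_comp, Function.comp_apply] at h5
      refine Eq.trans ?_ h5.symm
      rw [Scheme.Hom.appLE]
      simp only [CommRingCat.hom_comp, RingHom.coe_comp, Function.comp_apply]
      exact TopCat.Presheaf.germ_res_apply _ _ _ _ _
    rw [h4] at hu2
    have hu3 : IsUnit ((C.presheaf.germ U P.pt hP).hom z) :=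
      isUnit_of_map_unit (P.1.stalkMap (Prod.KPt.o k)).hom _ hu2
    rw [Curve.mem_primeIdealOf_iff hU ⟨P.pt, hP⟩, IsLocalRing.mem_maximalIdeal, mem_nonunits_iff] at hz
    exact hz hu3
  rw [← h1]
  simp only [CommRingCat.hom_comp, RingHom.coe_comp, Function.comp_apply]
  rw [h2, map_zero]

/-- **the local equation `1 ⊗ z - z ⊗ 1` of the diagonal pulls back to `- z_K`** along `(id, P)` -/
theorem jP_app_diagEq (Z : ZChart P.pt) {W : (pullback c c).Opens}
    (hW : W ≤ ProdAff.box c c Z.U₂ Z.U₂) :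
    letI : Algebra k Γ(C, Z.U₂) := (constHomOpen c Z.U₂).hom.toAlgebra
    ((jP c t P).app W).hom
        (resO hW ((ProdAff.tensorEquiv c c Z.isAffineOpen₂ Z.isAffineOpen₂ rfl rfl).symm
          (diagEq k Z.z))) =
      - resO (((jP c t P).preimage_mono hW).trans (jP_preimage_box_le c t P Z.U₂))
          (Z.zK c t P) := by
  let _ : Algebra k Γ(C, Z.U₂) := (constHomOpen c Z.U₂).hom.toAlgebra
  set te := ProdAff.tensorEquiv c c Z.isAffineOpen₂ Z.isAffineOpen₂ rfl rfl with hte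
  set V := jP c t P ⁻¹ᵁ W with hV
  have hVbox : V ≤ jP c t P ⁻¹ᵁ ProdAff.box c c Z.U₂ Z.U₂ := (jP c t P).preimage_mono hW
  -- naturality: `app W (res x) = appLE box V x`
  have h1 : ∀ x : Γ(pullback c c, ProdAff.box c c Z.U₂ Z.U₂),
      ((jP c t P).app W).hom (resO hW x) =
        ((jP c t P).appLE (ProdAff.box c c Z.U₂ Z.U₂) V hVbox).hom x := by
    intro x
    have h2 : (pullback c c).presheaf.map (homOfLE hW).op ≫ (jP c t P).appLE W V le_rfl =
        (jP c t P).appLE (ProdAff.box c c Z.U₂ Z.U₂) V hVbox :=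
      Scheme.Hom.map_appLE (jP c t P) le_rfl (homOfLE hW).op
    rw [Scheme.Hom.appLE_eq_app] at h2
    exact congrArg (fun φ => φ.hom x) h2
  rw [h1, diagEq, map_sub, map_sub, appLE_box_tmul c c Z.isAffineOpen₂ Z.isAffineOpen₂ rfl rfl,
    appLE_box_tmul c c Z.isAffineOpen₂ Z.isAffineOpen₂ rfl rfl, map_one, map_one, one_mul, mul_one]
  -- the second projection is constant
  have h3 : ∀ (h : V ≤ (jP c t P ≫ pullback.snd c c) ⁻¹ᵁ Z.U₂),
      ((jP c t P ≫ pullback.snd c c).appLE Z.U₂ V h).hom Z.z = 0 := by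
    intro h
    have h4 : jP c t P ≫ pullback.snd c c = (pullback.snd c t ≫ t) ≫ P.1 := by
      rw [jP_snd, Category.assoc]
    have h5 : V ≤ ((pullback.snd c t ≫ t) ≫ P.1) ⁻¹ᵁ Z.U₂ := by rw [← h4]; exact h
    have h6 := appLE_comp_kPt_eq_zero c P Z.isAffineOpen₂ Z.mem₂ Z.z
      (by rw [Z.span_z]; exact Ideal.mem_span_singleton_self _) (pullback.snd c t ≫ t) h5
    have h7 : ∀ (φ ψ : pullback c t ⟶ C) (hφψ : φ = ψ) (h : V ≤ φ ⁻¹ᵁ Z.U₂) (h' : V ≤ ψ ⁻¹ᵁ Z.U₂),
        (φ.appLE Z.U₂ V h).hom Z.z = (ψ.appLE Z.U₂ V h').hom Z.z := by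
      intro φ ψ hφψ h h'
      subst hφψ
      rfl
    rw [h7 _ _ h4 h h5, h6]
  rw [h3, zero_sub]
  congr 1
  -- the first projection
  have h8 : ∀ (φ ψ : pullback c t ⟶ C) (hφψ : φ = ψ) (h : V ≤ φ ⁻¹ᵁ Z.U₂) (h' : V ≤ ψ ⁻¹ᵁ Z.U₂),
      (φ.appLE Z.U₂ V h).hom Z.z = (ψ.appLE Z.U₂ V h').hom Z.z := by
    intro φ ψ hφψ h h'
    subst hφψ
    rfl
  have hV2 : V ≤ (pullback.fst c t) ⁻¹ᵁ Z.U₂ :=
    (hVbox.trans (jP_preimage_box_le c t P Z.U₂)).trans (ProdAff.box_le_fst c t Z.U₂ ⊤)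
  rw [h8 _ _ (jP_fst c t P) _ hV2]
  unfold ZChart.zK resO
  have h9 : (pullback.fst c t).appLE Z.U₂ (ProdAff.box c t Z.U₂ ⊤) (ProdAff.box_le_fst c t Z.U₂ ⊤) ≫
      (pullback c t).presheaf.map (homOfLE (hVbox.trans (jP_preimage_box_le c t P Z.U₂))).op =
      (pullback.fst c t).appLE Z.U₂ V hV2 :=
    Scheme.Hom.appLE_map (pullback.fst c t) _ _
  exact (congrArg (fun φ => φ.hom Z.z) h9).symm

end Fermat.Agent.S25lib.Abel
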