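/-
S25lib / Abel / TwDiv  (helper5)  --  Project L (S25): the divisor of the iterated twist `twPair` on a curve,
in helper9's dictionary (`Polar/Dict`, `Polar/TwistDiv`).
`HasDiv c d`: the cocycle `c` on `Y` has divisor `d` (for some generic index `j₀`, at every point `Q` there is an
index `k ∋ Q` with `ord_Q (u k j₀) = - d Q`).  Then `twPair 𝒟 f₀ (l.map φ)` has a generic generator with divisor
`∑_{a ∈ l} (d a - d₀)`.
-/
import Fermat.Agent.S25lib.Abel.Tw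
import Fermat.Agent.S25lib.Polar.TwistDiv

set_option autoImplicit false

noncomputable section

universe u

open AlgebraicGeometry CategoryTheory CategoryTheory.Limits TopologicalSpace

namespace Fermat.Agent.S25lib.Abel

open Fermat.Agent.S26lib Fermat.Agent.S26lib.Weil Fermat.Agent.S26lib.Aff Fermat.Agent.S25lib.Mod
  Fermat.Agent.S25lib.Polar

variable {Y : Scheme.{u}} [IsIntegral Y] [IsLocallyNoetherian Y]

/-- the cocycle `c` has divisor `d` -/
def HasDiv {ι : Type u} (c : Cocycle Y ι) (d : PrimeDiv Y → ℤ) : Prop :=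
  ∃ (j₀ : ι) (hj₀ : genericPoint Y ∈ c.U j₀), ∀ Q : PrimeDiv Y, ∃ (k : ι) (hk : Q.1 ∈ c.U k),
    ordAt Q (germFF (c.U k ⊓ c.U j₀)
      (⟨genericPoint_mem hk, hj₀⟩ : genericPoint Y ∈ c.U k ⊓ c.U j₀) (c.u k j₀)) = - d Q

theorem HasDiv.exists_twist {ι : Type u} {c : Cocycle Y ι} {d : PrimeDiv Y → ℤ} (h : HasDiv c d)
    {N : Y.Modules} (G : GenericGen N) (hN : LocGen N) :
    ∃ G' : GenericGen (c.twist N), ∀ Q, G'.divAt (hN.twist c) Q = G.divAt hN Q + d Q := by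
  obtain ⟨j₀, hj₀, hQ⟩ := h
  refine ⟨G.twist c j₀ hj₀, fun Q => ?_⟩
  obtain ⟨k, hk, hord⟩ := hQ Q
  rw [G.divAt_twist c j₀ hj₀ hN Q k hk, hord]
  ring

theorem HasDiv.exists_inv_twist {ι : Type u} {c : Cocycle Y ι} {d : PrimeDiv Y → ℤ}
    (h : HasDiv c d) {N : Y.Modules} (G : GenericGen N) (hN : LocGen N) :
    ∃ G' : GenericGen (c.inv.twist N), ∀ Q, G'.divAt (hN.twist c.inv) Q = G.divAt hN Q - d Q := by
  obtain ⟨j₀, hj₀, hQ⟩ := h
  refine ⟨G.twist c.inv j₀ hj₀, fun Q => ?_⟩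
  obtain ⟨k, hk, hord⟩ := hQ Q
  rw [G.divAt_twist_inv c j₀ hj₀ hN Q k hk, hord]
  ring

/-- the generic generator `1` of the structure sheaf -/
def genericGenUnit : GenericGen (unitM Y) where
  U₀ := ⊤
  mem := trivial
  s₀ := oneU ⊤
  gen := isGen_oneU ⊤

theorem divAt_genericGenUnit (Q : PrimeDiv Y) :
    (genericGenUnit (Y := Y)).divAt (locGen_unitM Y) Q = 0 :=
  GenericGen.divAt_eq_zero _ _ Q trivial

variable {S₂ : Scheme.{u}} {ι : Type u} (𝒟 : Cocycle S₂ ι)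

/-- **the divisor of `twPair`** -/
theorem exists_genericGen_twPair (f₀ : Y ⟶ S₂) (d₀ : PrimeDiv Y → ℤ) (h₀ : HasDiv (𝒟.pull f₀) d₀)
    {α : Type*} (φ : α → (Y ⟶ S₂)) (d : α → PrimeDiv Y → ℤ) (l : List α)
    (hd : ∀ a ∈ l, HasDiv (𝒟.pull (φ a)) (d a)) :
    ∃ G : GenericGen (twPair 𝒟 f₀ (l.map φ)), ∀ Q,
      G.divAt (locGen_twPair 𝒟 f₀ (l.map φ)) Q = (l.map (fun a => d a Q - d₀ Q)).sum := by
  induction l with
  | nil =>
    refine ⟨genericGenUnit, fun Q => ?_⟩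
    show (genericGenUnit (Y := Y)).divAt (locGen_unitM Y) Q = 0
    exact divAt_genericGenUnit Q
  | cons a l ih =>
    obtain ⟨G, hG⟩ := ih (fun b hb => hd b (List.mem_cons_of_mem _ hb))
    obtain ⟨G1, hG1⟩ := h₀.exists_inv_twist G (locGen_twPair 𝒟 f₀ (l.map φ))
    obtain ⟨G2, hG2⟩ := (hd a List.mem_cons_self).exists_twist G1
      ((locGen_twPair 𝒟 f₀ (l.map φ)).twist (𝒟.pull f₀).inv)
    refine ⟨G2, fun Q => ?_⟩
    refine (hG2 Q).trans ?_
    rw [hG1 Q, hG Q]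
    simp only [List.map_cons, List.sum_cons]
    ring

end Fermat.Agent.S25lib.Abel
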