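/-
S25lib / Abel / DiagDiv  (helper5)  --  Project L (S25): **the divisor of the diagonal cocycle along `(id, P)`**
is the point `P_K`: `hasDiv_diagPull : HasDiv ((diagCocycle c).pull (jP c t P)) [· = P_K]` on `C_K`
(`K` algebraically closed), in helper9's dictionary.
-/
import Fermat.Agent.S25lib.Abel.DiagPull
import Fermat.Agent.S25lib.Abel.TwDiv

set_option autoImplicit false

noncomputable section

universe u

open AlgebraicGeometry CategoryTheory CategoryTheory.Limits TopologicalSpace TensorProduct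
  Fermat.Agent.S26lib Fermat.Agent.S26lib.P5a

namespace Fermat.Agent.S25lib.Abel

open Fermat.Agent.S26lib.Weil Fermat.Agent.S26lib.Aff Fermat.Agent.S25lib.Mod
  Fermat.Agent.S25lib.Curve Fermat.Agent.S25lib.Polar

section Ord

variable {Y : Scheme.{u}} [IsIntegral Y] [IsLocallyNoetherian Y]

theorem ordAt_neg (Q : PrimeDiv Y) (x : Y.functionField) : ordAt Q (-x) = ordAt Q x := by
  rcases eq_or_ne x 0 with rfl | hx
  · rw [neg_zero]
  have h1 : ordAt Q ((-1 : Y.functionField) * (-1)) = ordAt Q (-1 : Y.functionField) + ordAt Q (-1) :=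
    ordAt_mul Q (neg_ne_zero.mpr one_ne_zero) (neg_ne_zero.mpr one_ne_zero)
  rw [neg_one_mul, neg_neg, CurvePlace.ordAt_one] at h1
  have h2 : ordAt Q (-1 : Y.functionField) = 0 := by omega
  have h3 : ordAt Q ((-1 : Y.functionField) * x) = ordAt Q (-1 : Y.functionField) + ordAt Q x :=
    ordAt_mul Q (neg_ne_zero.mpr one_ne_zero) hx
  rw [neg_one_mul] at h3
  omega

/-- if `a * b = 1` then `ord b = - ord a` -/
theorem ordAt_eq_neg_of_mul_eq_one (Q : PrimeDiv Y) {a b : Y.functionField} (hab : a * b = 1) :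
    ordAt Q b = - ordAt Q a := by
  have ha : a ≠ 0 := left_ne_zero_of_mul_eq_one hab
  have hb : b ≠ 0 := right_ne_zero_of_mul_eq_one hab
  have h := ordAt_mul Q ha hb
  rw [hab, CurvePlace.ordAt_one] at h
  omega

end Ord

variable {k : Type u} [Field k] [IsAlgClosed k] {C : Scheme.{u}}
  (c : C ⟶ Spec (CommRingCat.of k)) [IsProper c] [SmoothOfRelativeDimension 1 c] [IsIntegral C]
  {K : Type u} [Field K] [IsAlgClosed K] (t : Spec (CommRingCat.of K) ⟶ Spec (CommRingCat.of k))
  (P : Prod.KPt c)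

open Classical in
/-- **the divisor of `O(Δ)` along `(id, P)` is `P_K`** -/
theorem hasDiv_diagPull :
    haveI := isIntegral_pullback c t
    haveI := isLocallyNoetherian (pullback.snd c t)
    HasDiv ((diagCocycle c).pull (jP c t P))
      (fun Q => if Q = Pe (pullback.snd c t) (ptK c t P) then 1 else 0) := by
  have := isIntegral_pullback c t
  have := isLocallyNoetherian (pullback.snd c t)
  set Y := pullback c t with hY
  set 𝒟 := diagCocycle c with h𝒟
  -- the generic index
  have hη : jP c t P (genericPoint Y) ∉ Set.range (pullback.diagonal c) := by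
    intro h
    have h1 := eq_ptK_of_jP_mem_range c t P _ h
    exact pt_ne_genericPoint (pullback.snd c t) (ptK c t P) h1.symm
  obtain ⟨j₀, hj₀f, hj₀⟩ := exists_locEq_one c _ hη
  refine ⟨j₀, hj₀, fun Q => ?_⟩
  beta_reduce
  by_cases hQ : Q = Pe (pullback.snd c t) (ptK c t P)
  · -- the point `P_K`
    rw [if_pos hQ]
    subst hQ
    obtain ⟨T⟩ := Curve.nonempty_pointChart c P
    let Z : ZChart P.pt := T.toZChart
    let _ : Algebra k Γ(C, Z.U₂) := (constHomOpen c Z.U₂).hom.toAlgebra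
    obtain ⟨kP, hle, hkP, hkPf⟩ := exists_locEq_diagonal_kPt c P T
    have hk : (Pe (pullback.snd c t) (ptK c t P)).1 ∈ (𝒟.pull (jP c t P)).U kP := by
      show jP c t P (ptK c t P).pt ∈ kP.W
      rw [jP_ptK]
      exact hkP
    refine ⟨kP, hk, ?_⟩
    -- the relation `f_k * u = 1` on `W_k ⊓ W_{j₀}`
    have hrel := diagCocycle_spec c kP j₀ (le_refl (kP.W ⊓ j₀.W))
    rw [hj₀f, resO_one, resO_self] at hrel
    -- pull it back
    have hrel2 := congrArg ((jP c t P).app (kP.W ⊓ j₀.W)).hom hrel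
    rw [map_mul, map_one] at hrel2
    have hWbox : kP.W ⊓ j₀.W ≤ ProdAff.box c c Z.U₂ Z.U₂ := inf_le_left.trans hle
    have hf : resO (inf_le_left : kP.W ⊓ j₀.W ≤ kP.W) kP.f =
        resO hWbox ((ProdAff.tensorEquiv c c Z.isAffineOpen₂ Z.isAffineOpen₂ rfl rfl).symm
          (diagEq k Z.z)) := by
      rw [hkPf, resO_resO]
      rfl
    rw [hf, jP_app_diagEq c t P Z hWbox] at hrel2
    -- in the function field
    have hηV : genericPoint Y ∈ jP c t P ⁻¹ᵁ (kP.W ⊓ j₀.W) := ⟨genericPoint_mem hk, hj₀⟩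
    have hrel3 := congrArg (germFF (jP c t P ⁻¹ᵁ (kP.W ⊓ j₀.W)) hηV) hrel2
    rw [map_mul, map_one, map_neg] at hrel3
    have hz : germFF (jP c t P ⁻¹ᵁ (kP.W ⊓ j₀.W)) hηV
        (resO (((jP c t P).preimage_mono hWbox).trans (jP_preimage_box_le c t P Z.U₂))
          (Z.zK c t P)) =
        germFF (ProdAff.box c t Z.U₂ ⊤) (ZChart.mem_box₂ c t P Z) (Z.zK c t P) :=
      germFF_res _ hηV _
    rw [hz] at hrel3
    have hord := ordAt_eq_neg_of_mul_eq_one (Pe (pullback.snd c t) (ptK c t P)) hrel3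
    rw [ordAt_neg, ZChart.ordAt_zK_Pe c t P Z] at hord
    exact hord
  · -- the other points
    rw [if_neg hQ]
    have hQ1 : jP c t P Q.1 ∉ Set.range (pullback.diagonal c) := by
      intro h
      apply hQ
      apply Subtype.ext
      exact eq_ptK_of_jP_mem_range c t P _ h
    obtain ⟨k', hk'f, hk'⟩ := exists_locEq_one c _ hQ1
    refine ⟨k', hk', ?_⟩
    have hrel := diagCocycle_spec c k' j₀ (le_refl (k'.W ⊓ j₀.W))
    rw [hj₀f, hk'f, resO_one, resO_one, resO_self, one_mul] at hrel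
    have hu : (𝒟.pull (jP c t P)).u k' j₀ = 1 := by
      rw [Cocycle.pull_u, hrel]
      exact map_one ((jP c t P).app (k'.W ⊓ j₀.W)).hom
    rw [hu, map_one, CurvePlace.ordAt_one, neg_zero]

end Fermat.Agent.S25lib.Abel
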