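/-
S25lib / Abel / Pow  (helper5)  --  Project L (S25), (P-Proper/Conn), the source of the Abel-Jacobi surjection.
`powHom c n : powObj c n ⟶ S`: the `n`-fold fibre power of `c : C ⟶ S`; it is proper / geometrically connected /
geometrically irreducible / universally open / flat / locally of finite type whenever `c` is.
-/
import Mathlib

set_option autoImplicit false

noncomputable section

namespace Fermat.Agent.S25lib.Abel

open AlgebraicGeometry CategoryTheory CategoryTheory.Limits

universe u

variable {S C : Scheme.{u}} (c : C ⟶ S)

/-- the `n`-fold fibre power of `C` over `S` with its structure map -/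
def powAux : ℕ → Σ X : Scheme.{u}, (X ⟶ S)
  | 0 => ⟨S, 𝟙 S⟩
  | n + 1 => ⟨pullback c (powAux n).2, pullback.snd c (powAux n).2 ≫ (powAux n).2⟩

/-- the `n`-fold fibre power of `C` over `S` -/
def powObj (n : ℕ) : Scheme.{u} := (powAux c n).1

/-- its structure map -/
def powHom (n : ℕ) : powObj c n ⟶ S := (powAux c n).2

theorem powObj_zero : powObj c 0 = S := rfl

theorem powHom_zero : powHom c 0 = 𝟙 S := rfl

theorem powObj_succ (n : ℕ) : powObj c (n + 1) = pullback c (powHom c n) := rfl

/-- the projection `C^(n+1) → C` to the new factor -/
def powFst (n : ℕ) : powObj c (n + 1) ⟶ C := pullback.fst c (powHom c n)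

/-- the projection `C^(n+1) → C^n` forgetting the new factor -/
def powSnd (n : ℕ) : powObj c (n + 1) ⟶ powObj c n := pullback.snd c (powHom c n)

theorem powHom_succ (n : ℕ) : powHom c (n + 1) = powSnd c n ≫ powHom c n := rfl

theorem powFst_comp (n : ℕ) : powFst c n ≫ c = powHom c (n + 1) := by
  rw [powHom_succ]
  exact pullback.condition

theorem isPullback_pow (n : ℕ) : IsPullback (powFst c n) (powSnd c n) c (powHom c n) :=
  IsPullback.of_hasPullback c (powHom c n)

/-- a property of morphisms stable under base change and composition and containing identities passes to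
fibre powers -/
theorem powHom_mem (P : MorphismProperty Scheme.{u}) [P.IsStableUnderBaseChange]
    [P.IsStableUnderComposition] [P.ContainsIdentities] (hc : P c) (n : ℕ) : P (powHom c n) := by
  induction n with
  | zero => exact P.id_mem S
  | succ n ih =>
    rw [powHom_succ]
    exact P.comp_mem _ _ (P.pullback_snd _ _ hc) ih

instance pow_isProper [IsProper c] (n : ℕ) : IsProper (powHom c n) :=
  powHom_mem c @IsProper inferInstance n

instance pow_universallyOpen [UniversallyOpen c] (n : ℕ) : UniversallyOpen (powHom c n) :=
  powHom_mem c @UniversallyOpen inferInstance n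

instance pow_locallyOfFiniteType [LocallyOfFiniteType c] (n : ℕ) :
    LocallyOfFiniteType (powHom c n) :=
  powHom_mem c @LocallyOfFiniteType inferInstance n

instance pow_flat [Flat c] (n : ℕ) : Flat (powHom c n) :=
  powHom_mem c @Flat inferInstance n

theorem geometricallyConnected_id : GeometricallyConnected (𝟙 S) := by
  refine ⟨?_⟩
  intro K _ y Z fst snd hP
  have : IsIso snd := hP.isIso_snd_of_isIso
  have hs : Function.Surjective snd.base := (Scheme.Hom.homeomorph snd).surjective
  exact (Scheme.Hom.homeomorph snd).symm.surjective.connectedSpace
    (Scheme.Hom.homeomorph snd).symm.continuous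

theorem geometricallyIrreducible_id : GeometricallyIrreducible (𝟙 S) := by
  refine ⟨?_⟩
  intro K _ y Z fst snd hP
  have : IsIso snd := hP.isIso_snd_of_isIso
  exact (Scheme.Hom.homeomorph snd).symm.surjective.irreducibleSpace
    (Scheme.Hom.homeomorph snd).symm.continuous


theorem pow_geometricallyConnected [GeometricallyConnected c] [UniversallyOpen c] (n : ℕ) :
    GeometricallyConnected (powHom c n) := by
  induction n with
  | zero => exact geometricallyConnected_id
  | succ n ih =>
    rw [powHom_succ]
    have := ih
    have : GeometricallyConnected (powSnd c n) :=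
      inferInstanceAs (GeometricallyConnected (pullback.snd c (powHom c n)))
    have : UniversallyOpen (powSnd c n) :=
      inferInstanceAs (UniversallyOpen (pullback.snd c (powHom c n)))
    exact GeometricallyConnected.comp _ _

theorem pow_geometricallyIrreducible [GeometricallyIrreducible c] [UniversallyOpen c] (n : ℕ) :
    GeometricallyIrreducible (powHom c n) := by
  induction n with
  | zero => exact geometricallyIrreducible_id
  | succ n ih =>
    rw [powHom_succ]
    have := ih
    have : GeometricallyIrreducible (powSnd c n) :=
      inferInstanceAs (GeometricallyIrreducible (pullback.snd c (powHom c n)))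
    have : UniversallyOpen (powSnd c n) :=
      inferInstanceAs (UniversallyOpen (pullback.snd c (powHom c n)))
    exact GeometricallyIrreducible.comp _ _

end Fermat.Agent.S25lib.Abel
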