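/-
S25lib / Abel / Tw  (helper5)  --  Project L (S25): iterated twists by pullbacks of ONE cocycle.
For a cocycle `𝒟` on `S₂` (the diagonal cocycle on `C ×_k C`), `f₀ : X ⟶ S₂` and a list `fs` of morphisms
`X ⟶ S₂`: `twPair 𝒟 f₀ fs = O(∑_{f ∈ fs} (f^*D - f₀^*D))` on `X`; it is invertible, commutes with pullback,
and is trivial when all `f = f₀`.
-/
import Fermat.Agent.S25lib.Mod.TwistUnit

set_option autoImplicit false

noncomputable section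

universe u

open AlgebraicGeometry CategoryTheory CategoryTheory.Limits TopologicalSpace

namespace Fermat.Agent.S25lib.Abel

open Fermat.Agent.S25lib.Mod

variable {S₂ : Scheme.{u}} {ι : Type u} (𝒟 : Cocycle S₂ ι)

/-- one step: `M ↦ M(f^*D - f₀^*D)` -/
def twStep {X : Scheme.{u}} (f₀ f : X ⟶ S₂) (M : X.Modules) : X.Modules :=
  (𝒟.pull f).twist ((𝒟.pull f₀).inv.twist M)

/-- `O(∑_{f ∈ fs} (f^*D - f₀^*D))` -/
def twPair {X : Scheme.{u}} (f₀ : X ⟶ S₂) (fs : List (X ⟶ S₂)) : X.Modules :=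
  fs.foldr (fun f M => twStep 𝒟 f₀ f M) (unitM X)

theorem twPair_nil {X : Scheme.{u}} (f₀ : X ⟶ S₂) : twPair 𝒟 f₀ [] = unitM X := rfl

theorem twPair_cons {X : Scheme.{u}} (f₀ f : X ⟶ S₂) (fs : List (X ⟶ S₂)) :
    twPair 𝒟 f₀ (f :: fs) = twStep 𝒟 f₀ f (twPair 𝒟 f₀ fs) := rfl

theorem locGen_unitM (X : Scheme.{u}) : LocGen (unitM X) :=
  locGen_of_isInvertible (Scheme.Modules.isInvertible_unit X)

theorem locGen_twStep {X : Scheme.{u}} (f₀ f : X ⟶ S₂) {M : X.Modules} (hM : LocGen M) :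
    LocGen (twStep 𝒟 f₀ f M) :=
  LocGen.twist _ (LocGen.twist _ hM)

theorem locGen_twPair {X : Scheme.{u}} (f₀ : X ⟶ S₂) (fs : List (X ⟶ S₂)) :
    LocGen (twPair 𝒟 f₀ fs) := by
  induction fs with
  | nil => exact locGen_unitM X
  | cons f fs ih => exact locGen_twStep 𝒟 f₀ f ih

theorem isInvertible_twPair {X : Scheme.{u}} (f₀ : X ⟶ S₂) (fs : List (X ⟶ S₂)) :
    Scheme.Modules.IsInvertible (twPair 𝒟 f₀ fs) :=
  (isInvertible_iff_exists_isGen _).mpr (locGen_twPair 𝒟 f₀ fs)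

/-- `twStep` is functorial in the module -/
theorem nonempty_twStep_iso {X : Scheme.{u}} (f₀ f : X ⟶ S₂) {M M' : X.Modules}
    (e : Nonempty (M ≅ M')) : Nonempty (twStep 𝒟 f₀ f M ≅ twStep 𝒟 f₀ f M') := by
  obtain ⟨e⟩ := e
  exact ⟨(𝒟.pull f).twistIso ((𝒟.pull f₀).inv.twistIso e)⟩

/-- `twStep` commutes with pullback -/
theorem nonempty_pullback_twStep_iso {X Y : Scheme.{u}} (b : Y ⟶ X) (f₀ f : X ⟶ S₂)
    {M : X.Modules} (hM : LocGen M) :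
    Nonempty ((Scheme.Modules.pullback b).obj (twStep 𝒟 f₀ f M) ≅
      twStep 𝒟 (b ≫ f₀) (b ≫ f) ((Scheme.Modules.pullback b).obj M)) := by
  obtain ⟨e1⟩ := Cocycle.nonempty_pullback_twist_iso b (𝒟.pull f)
    (M := (𝒟.pull f₀).inv.twist M) (LocGen.twist _ hM)
  obtain ⟨e2⟩ := Cocycle.nonempty_pullback_twist_iso b (𝒟.pull f₀).inv (M := M) hM
  have h1 : ((𝒟.pull f₀).inv).pull b = (𝒟.pull (b ≫ f₀)).inv := by
    rw [Cocycle.pull_inv, Cocycle.pull_pull]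
  have h2 : (𝒟.pull f).pull b = 𝒟.pull (b ≫ f) := Cocycle.pull_pull _ _ _
  rw [h1] at e2
  rw [h2] at e1
  exact ⟨e1 ≪≫ (𝒟.pull (b ≫ f)).twistIso e2⟩

/-- **`twPair` commutes with pullback** -/
theorem nonempty_pullback_twPair_iso {X Y : Scheme.{u}} (b : Y ⟶ X) (f₀ : X ⟶ S₂)
    (fs : List (X ⟶ S₂)) :
    Nonempty ((Scheme.Modules.pullback b).obj (twPair 𝒟 f₀ fs) ≅
      twPair 𝒟 (b ≫ f₀) (fs.map (fun f => b ≫ f))) := by
  induction fs with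
  | nil => exact ⟨Scheme.Modules.pullbackUnitIso b⟩
  | cons f fs ih =>
    obtain ⟨e1⟩ := nonempty_pullback_twStep_iso 𝒟 b f₀ f (locGen_twPair 𝒟 f₀ fs)
    obtain ⟨e2⟩ := nonempty_twStep_iso 𝒟 (b ≫ f₀) (b ≫ f) ih
    exact ⟨e1 ≪≫ e2⟩

/-- one step with `f = f₀` is trivial -/
theorem nonempty_twStep_self_iso {X : Scheme.{u}} (f₀ : X ⟶ S₂) {M : X.Modules} (hM : LocGen M) :
    Nonempty (twStep 𝒟 f₀ f₀ M ≅ M) :=
  (𝒟.pull f₀).nonempty_iso_twist_inv_twist hM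

/-- **`twPair` is trivial when all the morphisms are equal to `f₀`** -/
theorem nonempty_twPair_iso_unit {X : Scheme.{u}} (f₀ : X ⟶ S₂) (fs : List (X ⟶ S₂))
    (h : ∀ f ∈ fs, f = f₀) : Nonempty (twPair 𝒟 f₀ fs ≅ unitM X) := by
  induction fs with
  | nil => exact ⟨Iso.refl _⟩
  | cons f fs ih =>
    have hf : f = f₀ := h f (List.mem_cons_self)
    subst hf
    obtain ⟨e1⟩ := ih (fun g hg => h g (List.mem_cons_of_mem _ hg))
    obtain ⟨e2⟩ := nonempty_twStep_self_iso 𝒟 f (locGen_twPair 𝒟 f fs)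
    exact ⟨e2 ≪≫ e1⟩

end Fermat.Agent.S25lib.Abel
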