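/-
S25lib / Abel / Family  (helper5)  --  Project L (S25): **the Abel-Jacobi family over `C^n`**.
* `powProj c n i : C^n ⟶ C`, `powLift` (morphisms into `C^n`), `powPt` (rational points of `C^n`);
* on `C ×_k C^n = pullback c (powHom c n)`: `famProj c n i = (id, pr_i)`, `famBase c ε n = (id, ε)` into `C ×_k C`,
  `famMod c ε n = O(∑_i (famProj i)^*Δ - (famBase)^*Δ)` (`twPair` of the diagonal cocycle);
* `famRLB c ε n : RLB c ε (powHom c n)` its rigidified correction (helper7's `Hub.exists_rlb_fibrewise_iso`);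
* `famRLB_fibre` : the fibre at the rational point `(P_1, …, P_n)` is `O(∑ P_i - n ε)` (as a `twPair` on `C ×_k k`).
-/
import Fermat.Agent.S25lib.Abel.Pow
import Fermat.Agent.S25lib.Abel.Tw
import Fermat.Agent.S25lib.Abel.DiagPull
import Fermat.Agent.S25lib.Hub.Rigidify

set_option autoImplicit false

noncomputable section

universe u

open AlgebraicGeometry CategoryTheory CategoryTheory.Limits AlgebraicGeometry.RelPicard
  NeronModelInfra GoodReductionJacobian Fermat.Agent.S26lib

namespace Fermat.Agent.S25lib.Abel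

open Fermat.Agent.S25lib.Mod

section General

variable {S C : Scheme.{u}} (c : C ⟶ S)

/-- the projections `C^n ⟶ C` -/
def powProj : (n : ℕ) → Fin n → (powObj c n ⟶ C)
  | 0 => fun i => Fin.elim0 i
  | n + 1 => fun i => Fin.cases (motive := fun _ => powObj c (n + 1) ⟶ C) (powFst c n)
      (fun j => powSnd c n ≫ powProj n j) i

theorem powProj_zero (n : ℕ) : powProj c (n + 1) 0 = powFst c n := rfl

theorem powProj_succ (n : ℕ) (j : Fin n) :
    powProj c (n + 1) j.succ = powSnd c n ≫ powProj c n j := by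
  show Fin.cases (motive := fun _ => powObj c (n + 1) ⟶ C) (powFst c n)
    (fun j => powSnd c n ≫ powProj c n j) j.succ = _
  rw [Fin.cases_succ]

theorem powProj_comp (n : ℕ) (i : Fin n) : powProj c n i ≫ c = powHom c n := by
  induction n with
  | zero => exact i.elim0
  | succ n ih =>
    refine Fin.cases ?_ (fun j => ?_) i
    · exact powFst_comp c n
    · rw [powProj_succ, Category.assoc, ih, powHom_succ]

variable {T : Scheme.{u}} (t : T ⟶ S)

/-- morphisms into `C^n` -/
def powLiftAux : (n : ℕ) → (f : Fin n → (T ⟶ C)) → (∀ i, f i ≫ c = t) →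
    {g : T ⟶ powObj c n // g ≫ powHom c n = t}
  | 0, _, _ => ⟨(t : T ⟶ S), Category.comp_id t⟩
  | n + 1, f, hf =>
    ⟨(pullback.lift (f 0) (powLiftAux n (fun i => f i.succ) (fun i => hf i.succ)).1
        ((hf 0).trans (powLiftAux n (fun i => f i.succ) (fun i => hf i.succ)).2.symm) :
          T ⟶ pullback c (powHom c n)),
      by
        show pullback.lift _ _ _ ≫ (pullback.snd c (powHom c n) ≫ powHom c n) = t
        rw [pullback.lift_snd_assoc]
        exact (powLiftAux n (fun i => f i.succ) (fun i => hf i.succ)).2⟩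

/-- the morphism `(f_1, …, f_n) : T ⟶ C^n` -/
def powLift (n : ℕ) (f : Fin n → (T ⟶ C)) (hf : ∀ i, f i ≫ c = t) : T ⟶ powObj c n :=
  (powLiftAux c t n f hf).1

@[reassoc]
theorem powLift_hom (n : ℕ) (f : Fin n → (T ⟶ C)) (hf : ∀ i, f i ≫ c = t) :
    powLift c t n f hf ≫ powHom c n = t :=
  (powLiftAux c t n f hf).2

theorem powLift_succ (n : ℕ) (f : Fin (n + 1) → (T ⟶ C)) (hf : ∀ i, f i ≫ c = t) :
    powLift c t (n + 1) f hf =
      (pullback.lift (f 0) (powLift c t n (fun i => f i.succ) (fun i => hf i.succ))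
        ((hf 0).trans (powLift_hom c t n _ _).symm) : T ⟶ pullback c (powHom c n)) := rfl

@[reassoc]
theorem powLift_proj (n : ℕ) (f : Fin n → (T ⟶ C)) (hf : ∀ i, f i ≫ c = t) (i : Fin n) :
    powLift c t n f hf ≫ powProj c n i = f i := by
  induction n with
  | zero => exact i.elim0
  | succ n ih =>
    rw [powLift_succ]
    refine Fin.cases ?_ (fun j => ?_) i
    · rw [powProj_zero]
      exact pullback.lift_fst _ _ _
    · rw [powProj_succ]
      show pullback.lift _ _ _ ≫ pullback.snd c (powHom c n) ≫ _ = _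
      rw [pullback.lift_snd_assoc]
      exact ih (fun i => f i.succ) (fun i => hf i.succ) j

end General

variable {k : Type u} [Field k] {C : Scheme.{u}} (c : C ⟶ Spec (CommRingCat.of k))

/-- the rational point `(P_1, …, P_n)` of `C^n` -/
def powPt (n : ℕ) (P : Fin n → Prod.KPt c) : Prod.KPt (powHom c n) :=
  ⟨powLift c (𝟙 _) n (fun i => (P i).1) (fun i => (P i).2), powLift_hom c (𝟙 _) n _ _⟩

@[reassoc]
theorem powPt_proj (n : ℕ) (P : Fin n → Prod.KPt c) (i : Fin n) :
    (powPt c n P).1 ≫ powProj c n i = (P i).1 :=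
  powLift_proj c (𝟙 _) n _ _ i

/-- `(id, pr_i) : C ×_k C^n ⟶ C ×_k C` -/
def famProj (n : ℕ) (i : Fin n) : pullback c (powHom c n) ⟶ pullback c c :=
  pullback.lift (pullback.fst c (powHom c n)) (pullback.snd c (powHom c n) ≫ powProj c n i)
    (by rw [Category.assoc, powProj_comp, pullback.condition])

/-- `(id, ε) : C ×_k C^n ⟶ C ×_k C` -/
def famBase (ε : Prod.KPt c) (n : ℕ) : pullback c (powHom c n) ⟶ pullback c c :=
  pullback.lift (pullback.fst c (powHom c n)) (pullback.snd c (powHom c n) ≫ powHom c n ≫ ε.1)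
    (by rw [Category.assoc, Category.assoc, ε.2, Category.comp_id, pullback.condition])

/-- the fibre of `(id, pr_i)` at the rational point `(P_1, …, P_n)` is `(id, P_i)` -/
theorem baseChangeSnd_famProj (n : ℕ) (P : Fin n → Prod.KPt c) (i : Fin n) :
    baseChangeSnd c (powPt c n P) ≫ famProj c n i = jP c (𝟙 (Spec (CommRingCat.of k))) (P i) := by
  unfold baseChangeSnd famProj jP
  apply pullback.hom_ext
  · simp only [Category.assoc, pullback.lift_fst, Category.comp_id]
  · simp only [Category.assoc, pullback.lift_snd, pullback.lift_snd_assoc, Category.id_comp]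
    rw [powPt_proj]

/-- the fibre of `(id, ε)` at a rational point is `(id, ε)` -/
theorem baseChangeSnd_famBase (ε : Prod.KPt c) (n : ℕ) (s : Prod.KPt (powHom c n)) :
    baseChangeSnd c s ≫ famBase c ε n = jP c (𝟙 (Spec (CommRingCat.of k))) ε := by
  unfold baseChangeSnd famBase jP
  apply pullback.hom_ext
  · simp only [Category.assoc, pullback.lift_fst, Category.comp_id]
  · simp only [Category.assoc, pullback.lift_snd, pullback.lift_snd_assoc, Category.id_comp]
    rw [reassoc_of% s.2]

variable [IsAlgClosed k] [IsProper c] [SmoothOfRelativeDimension 1 c] [IsIntegral C]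
  (ε : Prod.KPt c)

/-- **the Abel-Jacobi module** `O(∑_i (id, pr_i)^*Δ - n (id, ε)^*Δ)` on `C ×_k C^n` -/
def famMod (n : ℕ) : (pullback c (powHom c n)).Modules :=
  twPair (diagCocycle c) (famBase c ε n) (List.ofFn (famProj c n))

theorem isInvertible_famMod (n : ℕ) : Scheme.Modules.IsInvertible (famMod c ε n) :=
  isInvertible_twPair _ _ _

/-- the fibre of the Abel-Jacobi module at `(P_1, …, P_n)` -/
theorem nonempty_pullback_famMod_iso (n : ℕ) (P : Fin n → Prod.KPt c) :
    Nonempty ((Scheme.Modules.pullback (baseChangeSnd c (powPt c n P))).obj (famMod c ε n) ≅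
      twPair (diagCocycle c) (jP c (𝟙 (Spec (CommRingCat.of k))) ε)
        (List.ofFn (fun i => jP c (𝟙 (Spec (CommRingCat.of k))) (P i)))) := by
  obtain ⟨e⟩ := nonempty_pullback_twPair_iso (diagCocycle c) (baseChangeSnd c (powPt c n P))
    (famBase c ε n) (List.ofFn (famProj c n))
  rw [baseChangeSnd_famBase, List.map_ofFn] at e
  have h : ((fun f => baseChangeSnd c (powPt c n P) ≫ f) ∘ famProj c n) =
      fun i => jP c (𝟙 (Spec (CommRingCat.of k))) (P i) := by
    funext i
    exact baseChangeSnd_famProj c n P i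
  rw [h] at e
  exact ⟨e⟩

/-- **the Abel-Jacobi family**: the rigidified correction of `famMod` -/
def famRLB (n : ℕ) : RLB c ε (powHom c n) :=
  Classical.choose (Hub.exists_rlb_fibrewise_iso (ε := ε) (powHom c n) (famMod c ε n)
    (isInvertible_famMod c ε n))

theorem famRLB_spec (n : ℕ) (K : Type u) [Field K]
    (y : Spec (CommRingCat.of K) ⟶ Spec (CommRingCat.of k)) (s : SchemeHomOver y (powHom c n)) :
    Nonempty (((famRLB c ε n).pullbackAlong s).L ≅
      (Scheme.Modules.pullback (baseChangeSnd c s)).obj (famMod c ε n)) :=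
  Classical.choose_spec (Hub.exists_rlb_fibrewise_iso (ε := ε) (powHom c n) (famMod c ε n)
    (isInvertible_famMod c ε n)) K y s

/-- **the fibre of the Abel-Jacobi family at `(P_1, …, P_n)`** is `O(∑ P_i - n ε)` -/
theorem famRLB_fibre (n : ℕ) (P : Fin n → Prod.KPt c) :
    Nonempty (((famRLB c ε n).pullbackAlong (powPt c n P)).L ≅
      twPair (diagCocycle c) (jP c (𝟙 (Spec (CommRingCat.of k))) ε)
        (List.ofFn (fun i => jP c (𝟙 (Spec (CommRingCat.of k))) (P i)))) := by
  obtain ⟨e1⟩ := famRLB_spec c ε n k (𝟙 _) (powPt c n P)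
  obtain ⟨e2⟩ := nonempty_pullback_famMod_iso c ε n P
  exact ⟨e1 ≪≫ e2⟩

/-- the fibre at `(ε, …, ε)` is trivial -/
theorem famRLB_fibre_base (n : ℕ) :
    Nonempty (((famRLB c ε n).pullbackAlong (powPt c n (fun _ => ε))).L ≅
      SheafOfModules.unit (pullback c (𝟙 (Spec (CommRingCat.of k)))).ringCatSheaf) := by
  obtain ⟨e1⟩ := famRLB_fibre c ε n (fun _ => ε)
  obtain ⟨e2⟩ := nonempty_twPair_iso_unit (diagCocycle c) (jP c (𝟙 (Spec (CommRingCat.of k))) ε)
    (List.ofFn (fun _ : Fin n => jP c (𝟙 (Spec (CommRingCat.of k))) ε)) (by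
      intro f hf
      rw [List.mem_ofFn] at hf
      obtain ⟨_, rfl⟩ := hf
      rfl)
  exact ⟨e1 ≪≫ e2⟩

end Fermat.Agent.S25lib.Abel
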