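/-
S25lib / Abel / Surj  (helper5)  --  Project L (S25), the reduction of (P-Proper/Conn) to ONE family.
`proper_connected_of_family`: if `T` is proper and geometrically connected over `k` and `𝓛` is a rigidified line
bundle of the cut on `C ×_k T` such that EVERY bundle of the cut over an algebraically closed field is a fibre of
`𝓛`, then the classifying morphism `T ⟶ D.P` is surjective; hence `D.P`, if separated and locally of finite type,
is proper and geometrically connected over `k`.
-/
import Fermat.Agent.S25lib.Sep.Main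
import Fermat.Agent.S25lib.Props.Abstract
import Fermat.Agent.S26lib.VarSch.Points

set_option autoImplicit false

noncomputable section

universe u

open AlgebraicGeometry CategoryTheory CategoryTheory.Limits AlgebraicGeometry.RelPicard
  NeronModelInfra GoodReductionJacobian

namespace Fermat.Agent.S25lib.Abel

variable {k : Type u} [Field k] {C : Scheme.{u}} {c : C ⟶ Spec (CommRingCat.of k)}
  {ε : SchemeHomOver (𝟙 (Spec (CommRingCat.of k))) c}

/-- pullback of isomorphic bundles -/
theorem RLB.Iso.pullbackAlong {T T' : Scheme.{u}} {t : T ⟶ Spec (CommRingCat.of k)}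
    {t' : T' ⟶ Spec (CommRingCat.of k)} {M M' : RLB c ε t} (h : RLB.Iso M M')
    (ψ : SchemeHomOver t' t) : RLB.Iso (M.pullbackAlong ψ) (M'.pullbackAlong ψ) :=
  ⟨(Scheme.Modules.pullback _).mapIso h.some⟩

/-- the family of all fibres hypothesis -/
def AllFibres {T : Scheme.{u}} {t : T ⟶ Spec (CommRingCat.of k)} (𝓛 : RLB c ε t) : Prop :=
  ∀ (K : Type u) [Field K] [IsAlgClosed K] (y : Spec (CommRingCat.of K) ⟶ Spec (CommRingCat.of k))
    (M : RLB c ε y), InP M → ∃ s : SchemeHomOver y t, RLB.Iso (𝓛.pullbackAlong s) M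

/-- the classifying morphism of a family with all fibres is surjective -/
theorem surjective_classify (D : RelativePic0Designation k c)
    (h : RepresentsRelSubPic c ε (algEquivZeroCut c ε) D)
    {T : Scheme.{u}} (t : T ⟶ Spec (CommRingCat.of k)) (𝓛 : RLB c ε t) (h𝓛 : InP 𝓛)
    (hall : AllFibres 𝓛) : Surjective (h.classify t 𝓛 h𝓛).1 := by
  apply Props.surjective_of_geometric_points
  intro K _ _ s
  let y : Spec (CommRingCat.of K) ⟶ Spec (CommRingCat.of k) := s ≫ D.toBase
  let σ : SchemeHomOver y D.toBase := ⟨s, rfl⟩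
  have hmem : InP (h.poincare.pullbackAlong σ) := FibrewiseAlgEquivZero.pullback σ h.poincare_mem
  obtain ⟨s', hs'⟩ := hall K y _ hmem
  refine ⟨s'.1, ?_⟩
  have h1 : RLB.Iso (h.poincare.pullbackAlong (postComp (h.classify t 𝓛 h𝓛) s'))
      (h.poincare.pullbackAlong σ) := by
    obtain ⟨e1⟩ := Sep.pullbackAlong_comp_iso h.poincare (h.classify t 𝓛 h𝓛) s'
    obtain ⟨e2⟩ := RLB.Iso.pullbackAlong (h.classify_spec t 𝓛 h𝓛) s'
    obtain ⟨e3⟩ := hs'
    exact ⟨e1.symm ≪≫ e2 ≪≫ e3⟩
  have h2 := h.ext_of_iso y _ _ h1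
  exact congrArg Subtype.val h2

/-- **the reduction of properness and geometric connectedness to one family with all fibres** -/
theorem proper_connected_of_family (D : RelativePic0Designation k c)
    (h : RepresentsRelSubPic c ε (algEquivZeroCut c ε) D)
    {T : Scheme.{u}} (t : T ⟶ Spec (CommRingCat.of k)) [IsProper t] [GeometricallyConnected t]
    (𝓛 : RLB c ε t) (h𝓛 : InP 𝓛) (hall : AllFibres 𝓛)
    [IsSeparated D.toBase] [LocallyOfFiniteType D.toBase] :
    IsProper D.toBase ∧ GeometricallyConnected D.toBase := by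
  have hs : Surjective (h.classify t 𝓛 h𝓛).1 := surjective_classify D h t 𝓛 h𝓛 hall
  exact ⟨Props.isProper_of_surjective D.toBase t (h.classify t 𝓛 h𝓛).1 (h.classify t 𝓛 h𝓛).2,
    Props.geometricallyConnected_of_surjective D.toBase t (h.classify t 𝓛 h𝓛).1
      (h.classify t 𝓛 h𝓛).2⟩

/-! ### the version with `k`-points only (`k` algebraically closed) -/

/-- every bundle of the cut over `k` ITSELF is a fibre of the family -/
def AllFibresK {T : Scheme.{u}} {t : T ⟶ Spec (CommRingCat.of k)} (𝓛 : RLB c ε t) : Prop :=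
  ∀ M : RLB c ε (𝟙 (Spec (CommRingCat.of k))), InP M →
    ∃ s : SchemeHomOver (𝟙 (Spec (CommRingCat.of k))) t, RLB.Iso (𝓛.pullbackAlong s) M

/-- over an algebraically closed field, the classifying morphism of a PROPER family into a separated
`D.P`, locally of finite type, is surjective as soon as all `k`-points are reached -/
theorem surjective_classify_of_kPoints [IsAlgClosed k] (D : RelativePic0Designation k c)
    (h : RepresentsRelSubPic c ε (algEquivZeroCut c ε) D)
    {T : Scheme.{u}} (t : T ⟶ Spec (CommRingCat.of k)) [IsProper t]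
    (𝓛 : RLB c ε t) (h𝓛 : InP 𝓛) (hall : AllFibresK 𝓛)
    [IsSeparated D.toBase] [LocallyOfFiniteType D.toBase] :
    Surjective (h.classify t 𝓛 h𝓛).1 := by
  set φ := h.classify t 𝓛 h𝓛 with hφ
  have hcomp : φ.1 ≫ D.toBase = t := φ.2
  have : UniversallyClosed (φ.1 ≫ D.toBase) := by rw [hcomp]; infer_instance
  have : UniversallyClosed φ.1 := UniversallyClosed.of_comp_of_isSeparated φ.1 D.toBase
  have hclosed : IsClosed (Set.range φ.1) := by
    rw [← Set.image_univ]
    exact (Scheme.Hom.isClosedMap φ.1) _ isClosed_univ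
  constructor
  by_contra hns
  have hne : (Set.range φ.1)ᶜ.Nonempty := by
    by_contra hcon
    rw [Set.not_nonempty_iff_eq_empty, Set.compl_empty_iff] at hcon
    exact hns (Set.range_eq_univ.mp hcon)
  obtain ⟨a, ha⟩ := Fermat.Agent.S26lib.VarSch.exists_kpt_mem_of_isLocallyClosed (f := D.toBase)
    hclosed.isOpen_compl.isLocallyClosed hne
  let σ : SchemeHomOver (𝟙 (Spec (CommRingCat.of k))) D.toBase := ⟨a.1, a.2⟩
  have hmem : InP (h.poincare.pullbackAlong σ) := FibrewiseAlgEquivZero.pullback σ h.poincare_mem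
  obtain ⟨s', hs'⟩ := hall _ hmem
  have h1 : RLB.Iso (h.poincare.pullbackAlong (postComp φ s')) (h.poincare.pullbackAlong σ) := by
    obtain ⟨e1⟩ := Sep.pullbackAlong_comp_iso h.poincare φ s'
    obtain ⟨e2⟩ := RLB.Iso.pullbackAlong (h.classify_spec t 𝓛 h𝓛) s'
    obtain ⟨e3⟩ := hs'
    exact ⟨e1.symm ≪≫ e2 ≪≫ e3⟩
  have h2 := h.ext_of_iso _ _ _ h1
  have h3 : s'.1 ≫ φ.1 = a.1 := congrArg Subtype.val h2
  apply ha
  refine ⟨s'.1 (IsLocalRing.closedPoint k), ?_⟩
  show (s'.1 ≫ φ.1) (IsLocalRing.closedPoint k) = _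
  rw [h3]
  rfl

/-- **(P-Proper/Conn) from one proper connected family reaching all `k`-points** -/
theorem proper_connected_of_family_kPoints [IsAlgClosed k] (D : RelativePic0Designation k c)
    (h : RepresentsRelSubPic c ε (algEquivZeroCut c ε) D)
    {T : Scheme.{u}} (t : T ⟶ Spec (CommRingCat.of k)) [IsProper t] [GeometricallyConnected t]
    (𝓛 : RLB c ε t) (h𝓛 : InP 𝓛) (hall : AllFibresK 𝓛)
    [IsSeparated D.toBase] [LocallyOfFiniteType D.toBase] :
    IsProper D.toBase ∧ GeometricallyConnected D.toBase := by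
  have hs : Surjective (h.classify t 𝓛 h𝓛).1 := surjective_classify_of_kPoints D h t 𝓛 h𝓛 hall
  exact ⟨Props.isProper_of_surjective D.toBase t (h.classify t 𝓛 h𝓛).1 (h.classify t 𝓛 h𝓛).2,
    Props.geometricallyConnected_of_surjective D.toBase t (h.classify t 𝓛 h𝓛).1
      (h.classify t 𝓛 h𝓛).2⟩

end Fermat.Agent.S25lib.Abel
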