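/-
S25lib / Abel / Main  (helper5)  --  Project L (S25): **the Abel statement** (P-Proper/Conn).
For a proper smooth integral curve `C` over `k = k̄` of genus `γ` (the genus of `C ×_k k`): the Abel-Jacobi family
`famRLB c ε γ` over `C^γ` lies in the cut (`inP_famRLB`, from the geometric integrality of `C^γ`) and reaches every
bundle of the cut over `k` (`allFibresK_famRLB`, from Riemann's theorem `Polar.GenericGen.exists_points_iso` and
(P-Deg)); hence every separated representing scheme, locally of finite type, is proper and geometrically connected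
(`abelStatement`).
-/
import Fermat.Agent.S25lib.Abel.Family
import Fermat.Agent.S25lib.Abel.DiagDiv
import Fermat.Agent.S25lib.Abel.Surj
import Fermat.Agent.S25lib.Abel.Mem
import Fermat.Agent.S25lib.Polar.Surj
import Fermat.Agent.S25lib.Polar.LayerFields
import Fermat.Agent.S25lib.Hub.Assemble
import Fermat.Agent.S25lib.Glue.PowGI

set_option autoImplicit false

noncomputable section

universe u

open AlgebraicGeometry CategoryTheory CategoryTheory.Limits AlgebraicGeometry.RelPicard
  NeronModelInfra GoodReductionJacobian AlgebraicCurve Fermat.Agent.S26lib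

namespace Fermat.Agent.S25lib.Abel

open Fermat.Agent.S18lib Fermat.Agent.S26lib.Weil Fermat.Agent.S26lib.Aff
  Fermat.Agent.S26lib.CechRR Fermat.Agent.S26lib.CurvePlace Fermat.Agent.S25lib.Mod
  Fermat.Agent.S25lib.Curve Fermat.Agent.S25lib.Polar

/-- geometrically irreducible morphisms are geometrically connected -/
theorem geometricallyConnected_of_geometricallyIrreducible {X S : Scheme.{u}} (f : X ⟶ S)
    [GeometricallyIrreducible f] : GeometricallyConnected f := by
  refine ⟨fun K _ y Z fst snd h => ?_⟩
  have : IrreducibleSpace Z :=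
    GeometricallyIrreducible.geometrically_irreducibleSpace (f := f) y fst snd h
  infer_instance

variable {k : Type u} [Field k] [IsAlgClosed k] {C : Scheme.{u}}
  (c : C ⟶ Spec (CommRingCat.of k)) [IsProper c] [SmoothOfRelativeDimension 1 c] [IsIntegral C]
  (ε : Prod.KPt c)

/-- every DVR point of `C ×_k k` comes from a rational point of `C` -/
theorem exists_kPt_PeK
    (Q : haveI := isIntegral_pullback c (𝟙 (Spec (CommRingCat.of k)))
      haveI := isLocallyNoetherian (pullback.snd c (𝟙 (Spec (CommRingCat.of k))))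
      PrimeDiv (pullback c (𝟙 (Spec (CommRingCat.of k))))) :
    ∃ P : Prod.KPt c, Q = PeK c (𝟙 (Spec (CommRingCat.of k))) P := by
  have := isIntegral_pullback c (𝟙 (Spec (CommRingCat.of k)))
  have := isLocallyNoetherian (pullback.snd c (𝟙 (Spec (CommRingCat.of k))))
  obtain ⟨ε', hε'⟩ := exists_kPt_eq (pullback.snd c (𝟙 (Spec (CommRingCat.of k)))) Q
  have hfst : pullback.fst c (𝟙 (Spec (CommRingCat.of k))) ≫ c =
      pullback.snd c (𝟙 (Spec (CommRingCat.of k))) := by
    rw [pullback.condition, Category.comp_id]
  let P : Prod.KPt c := ε'.map (pullback.fst c (𝟙 (Spec (CommRingCat.of k)))) hfst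
  refine ⟨P, Subtype.ext ?_⟩
  rw [PeK_val, ← hε']
  exact eq_ptK_of_fst_eq c (𝟙 (Spec (CommRingCat.of k))) P ε'.pt rfl

open Classical in
/-- **the Abel-Jacobi family over `C^γ` reaches every bundle of the cut over `k`** -/
theorem allFibresK_famRLB (hP : PDeg c) {γ : ℕ}
    (hF : haveI := isIntegral_pullback c (𝟙 (Spec (CommRingCat.of k)))
      letI := kAlgebraFF (pullback.snd c (𝟙 (Spec (CommRingCat.of k))))
      IsCurveOfGenus k (pullback c (𝟙 (Spec (CommRingCat.of k)))).functionField γ) :
    AllFibresK (famRLB c ε γ) := by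
  intro M hM
  have := isIntegral_pullback c (𝟙 (Spec (CommRingCat.of k)))
  have := isLocallyNoetherian (pullback.snd c (𝟙 (Spec (CommRingCat.of k))))
  have hMg : LocGen M.L := locGen_of_isInvertible M.isInvertible
  obtain ⟨G⟩ := nonempty_genericGen hMg
  have hdeg := hP k (𝟙 (Spec (CommRingCat.of k))) M.L M.isInvertible
    (isAlgEquivZero_of_inP M hM) G
  obtain ⟨P, hPiso⟩ := G.exists_points_iso (pullback.snd c (𝟙 (Spec (CommRingCat.of k))))
    (hreg (pullback.snd c (𝟙 (Spec (CommRingCat.of k))))) hF hMg hdeg
    (PeK c (𝟙 (Spec (CommRingCat.of k))) ε)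
  choose P' hP' using fun i => exists_kPt_PeK c (P i)
  refine ⟨powPt c γ P', ?_⟩
  obtain ⟨e1⟩ := famRLB_fibre c ε γ P'
  obtain ⟨G', hG'⟩ := exists_genericGen_twPair (diagCocycle c)
    (jP c (𝟙 (Spec (CommRingCat.of k))) ε)
    (fun Q => if Q = PeK c (𝟙 (Spec (CommRingCat.of k))) ε then 1 else 0)
    (hasDiv_diagPull c (𝟙 (Spec (CommRingCat.of k))) ε)
    (fun i : Fin γ => jP c (𝟙 (Spec (CommRingCat.of k))) (P' i))
    (fun i Q => if Q = PeK c (𝟙 (Spec (CommRingCat.of k))) (P' i) then 1 else 0)
    (List.finRange γ) (fun i _ => hasDiv_diagPull c (𝟙 (Spec (CommRingCat.of k))) (P' i))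
  rw [List.ofFn_eq_map] at e1
  obtain ⟨e2⟩ := hPiso G' (locGen_twPair _ _ _) (fun Q => by
    rw [hG' Q, ← Fin.sum_univ_def, Finset.sum_sub_distrib, Finset.sum_const, Finset.card_univ,
      Fintype.card_fin, nsmul_eq_mul, Finset.sum_boole]
    congr 3
    ext i
    simp only [Finset.mem_filter, Finset.mem_univ, true_and]
    rw [hP' i]
    exact eq_comm)
  exact ⟨e1 ≪≫ e2.symm⟩

/-- **the Abel-Jacobi family lies in the cut** -/
theorem inP_famRLB (n : ℕ) [GeometricallyIntegral (powHom c n)] : InP (famRLB c ε n) :=
  inP_of_geometricallyIntegral (powHom c n) (famRLB c ε n) (powPt c n (fun _ => ε))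
    (famRLB_fibre_base c ε n)

/-- **the Abel statement** (P-Proper/Conn), from (P-Deg) and the geometric integrality of the powers of `C` -/
theorem abelStatement_of (hP : PDeg c) (hGI : ∀ n, GeometricallyIntegral (powHom c n)) :
    Hub.AbelStatement c ε := by
  intro D h hsep hlft
  have := isIntegral_pullback c (𝟙 (Spec (CommRingCat.of k)))
  obtain ⟨γ, hF⟩ := exists_genus (pullback.snd c (𝟙 (Spec (CommRingCat.of k))))
  have := hGI γ
  have : GeometricallyIrreducible (powHom c γ) := inferInstance
  have := geometricallyConnected_of_geometricallyIrreducible (powHom c γ)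
  exact proper_connected_of_family_kPoints D h (powHom c γ) (famRLB c ε γ) (inP_famRLB c ε γ)
    (allFibresK_famRLB c ε hP hF)

/-- the powers of the curve are geometrically integral (helper2's `Glue.pow_geometricallyIntegral`) -/
theorem pow_geometricallyIntegral_curve (n : ℕ) : GeometricallyIntegral (powHom c n) := by
  have := Curve.geometricallyIntegral c
  have : Smooth c := SmoothOfRelativeDimension.smooth 1 c
  exact Glue.pow_geometricallyIntegral c n

/-- **the Abel statement** (P-Proper/Conn), from (P-Deg) -/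
theorem abelStatement (hP : PDeg c) : Hub.AbelStatement c ε :=
  abelStatement_of c ε hP (pow_geometricallyIntegral_curve c)

end Fermat.Agent.S25lib.Abel
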