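/-
S25lib / Abel / Final  (helper5)  --  Project L (S25): **the Abel statement, unconditionally**
(`Abel/Main.abelStatement` + helper9's `Polar.pdeg`).
-/
import Fermat.Agent.S25lib.Abel.Main
import Fermat.Agent.S25lib.Polar.PDeg

set_option autoImplicit false

noncomputable section

universe u

open AlgebraicGeometry CategoryTheory CategoryTheory.Limits Fermat.Agent.S26lib

namespace Fermat.Agent.S25lib.Abel

variable {k : Type u} [Field k] [IsAlgClosed k] {C : Scheme.{u}}
  (c : C ⟶ Spec (CommRingCat.of k)) [IsProper c] [SmoothOfRelativeDimension 1 c] [IsIntegral C]
  (ε : Prod.KPt c)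

/-- **(P-Proper/Conn)**: every separated representing scheme of the cut, locally of finite type, is proper and
geometrically connected -/
theorem abelStatement_final : Hub.AbelStatement c ε :=
  abelStatement c ε (Polar.pdeg c)

end Fermat.Agent.S25lib.Abel
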